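import Fermat.Agent.H47.SS2.LpzLoc

/-!
# P-SS2 row 893 (SS2-A2 LPZ), regular branches through a point (helper47)

Mathlib only.  `B ⊆ E` a noetherian subalgebra with fraction field `E`, `𝔪` a prime ideal of `B`.

* `BranchData B 𝔪 V x₁ x₂` : the data of a regular branch through `𝔪` : `V ⊇ B` a valuation
  subring with centre in `𝔪`, `x₁ ∈ B` a nonzero non-unit of `V` with `𝔭_V B_𝔪 = x₁ B_𝔪`,
  `x₂ ∈ 𝔪`, `𝔪 B_𝔪 = (x₁, x₂)` (the part of `Fermat.Agent.H11.SS2.IsRegPoint` which is used);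
* `BranchData.norm` : the branch is `n`-root closed;
* `lpzOneB`, `lpzThreeB` : local principalisation with roots of unity, one resp. three branches
  (`z₁ = 0`, `z₂ = 0`, `z₁ + z₂ = 0`).
-/

set_option autoImplicit false
set_option linter.style.haveILetI false
set_option linter.unusedSectionVars false

noncomputable section

namespace Fermat.Agent.H47.SS2

open IsLocalRing

/-- The maximal ideal of a valuation subring absorbs multiplication by elements of the ring. -/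
theorem mul_mem_nonunits_left {E : Type*} [Field E] (V : ValuationSubring E) {x y : E}
    (hx : x ∈ V) (hy : y ∈ V.nonunits) : x * y ∈ V.nonunits := by
  have hy' : y ∈ V := V.nonunits_subset hy
  rw [mem_nonunits_iff_residue V (mul_mem hx hy')]
  have e : (⟨x * y, mul_mem hx hy'⟩ : V) = ⟨x, hx⟩ * ⟨y, hy'⟩ := rfl
  rw [e, map_mul, (mem_nonunits_iff_residue V hy').mp hy, mul_zero]

section Branch

variable {A : Type*} [CommRing A] {E : Type*} [Field E] [Algebra A E]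
variable (B : Subalgebra A E) (𝔪 : Ideal B)

/-- The data of a regular branch through `𝔪`. -/
structure BranchData (V : ValuationSubring E) (x₁ x₂ : E) : Prop where
  sub : ∀ b : B, (b : E) ∈ V
  thru : ∀ s : B, (s : E) ∈ V.nonunits → s ∈ 𝔪
  mem₁ : x₁ ∈ B
  mem₂ : x₂ ∈ B
  mem_max₂ : ∀ h : x₂ ∈ B, (⟨x₂, h⟩ : B) ∈ 𝔪
  ne_zero : x₁ ≠ 0
  mem_nonunits : x₁ ∈ V.nonunits
  prin : ∀ s : B, (s : E) ∈ V.nonunits → InLocB B 𝔪 ((s : E) / x₁)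
  gen : ∀ s : B, s ∈ 𝔪 →
    ∃ c₁ c₂ : E, InLocB B 𝔪 c₁ ∧ InLocB B 𝔪 c₂ ∧ (s : E) = c₁ * x₁ + c₂ * x₂

variable [h𝔪 : 𝔪.IsPrime] [hFR : IsFractionRing B E]
variable {B 𝔪} {V : ValuationSubring E} {x₁ x₂ : E}

namespace BranchData

variable (h : BranchData B 𝔪 V x₁ x₂)

include h

theorem loc_le (r : locSubring B 𝔪) : (r : E) ∈ V := by
  obtain ⟨b, hb, hbr⟩ := (mem_locSubring_iff B 𝔪 _).mp r.2
  have hbV : (b : E) ∉ V.nonunits := fun hb' => hb (h.thru b hb')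
  have hbinv : ((b : E))⁻¹ ∈ V := inv_mem_of_notMem_nonunits V hbV
  have hb0 : (b : E) ≠ 0 := coe_ne_zero_of_notMem B 𝔪 hb
  have : (r : E) = (b : E)⁻¹ * ((b : E) * r) := by field_simp
  rw [this]
  exact mul_mem hbinv (h.sub ⟨_, hbr⟩)

/-- `x₁` as an element of `B_𝔪`. -/
def X₁ : locSubring B 𝔪 := toLoc B 𝔪 ⟨x₁, h.mem₁⟩

/-- `x₂` as an element of `B_𝔪`. -/
def X₂ : locSubring B 𝔪 := toLoc B 𝔪 ⟨x₂, h.mem₂⟩

@[simp] theorem coe_X₁ : ((h.X₁ : locSubring B 𝔪) : E) = x₁ := rfl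

@[simp] theorem coe_X₂ : ((h.X₂ : locSubring B 𝔪) : E) = x₂ := rfl

theorem X₂_mem : h.X₂ ∈ maximalIdeal (locSubring B 𝔪) :=
  toLoc_mem_maximalIdeal B 𝔪 (h.mem_max₂ h.mem₂)

theorem prin' (l : locSubring B 𝔪) (hl : (l : E) ∈ V.nonunits) :
    ∃ c : locSubring B 𝔪, l = h.X₁ * c := by
  obtain ⟨b, hb, hbl⟩ := (mem_locSubring_iff B 𝔪 _).mp l.2
  have hb0 : (b : E) ≠ 0 := coe_ne_zero_of_notMem B 𝔪 hb
  have haV : ((⟨_, hbl⟩ : B) : E) ∈ V.nonunits := mul_mem_nonunits_left V (h.sub b) hl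
  have h1 := (mem_locSubring_iff B 𝔪 _).mpr (h.prin ⟨_, hbl⟩ haV)
  have h2 := inv_mem_locSubring B 𝔪 hb
  refine ⟨⟨_, mul_mem h1 h2⟩, Subtype.ext ?_⟩
  have hx0 := h.ne_zero
  show (l : E) = x₁ * ((b : E) * (l : E) / x₁ * (b : E)⁻¹)
  field_simp

theorem gen' : maximalIdeal (locSubring B 𝔪) ≤ Ideal.span {h.X₁, h.X₂} := by
  intro r hr
  obtain ⟨s, hs, b, hb, hbr⟩ := exists_of_mem_maximalIdeal B 𝔪 hr
  obtain ⟨c₁, c₂, hc₁, hc₂, hsc⟩ := h.gen s hs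
  have hb0 : (b : E) ≠ 0 := coe_ne_zero_of_notMem B 𝔪 hb
  have h2 := inv_mem_locSubring B 𝔪 hb
  have m₁ := (mem_locSubring_iff B 𝔪 _).mpr hc₁
  have m₂ := (mem_locSubring_iff B 𝔪 _).mpr hc₂
  rw [Ideal.mem_span_pair]
  refine ⟨⟨_, mul_mem m₁ h2⟩, ⟨_, mul_mem m₂ h2⟩, Subtype.ext ?_⟩
  show c₁ * (b : E)⁻¹ * x₁ + c₂ * (b : E)⁻¹ * x₂ = (r : E)
  have : (r : E) = (b : E)⁻¹ * (s : E) := by
    rw [← hbr]
    field_simp
  rw [this, hsc]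
  ring

/-- **NORM**: the branch is `n`-root closed. -/
theorem norm [IsNoetherianRing B] (n : ℕ) (hn : 0 < n) (z : E) (hz : z ∈ V)
    (r : locSubring B 𝔪) (hr : IsUnit r) (hzr : z ^ n - (r : E) ∈ V.nonunits) :
    ∃ r' : locSubring B 𝔪, z - (r' : E) ∈ V.nonunits :=
  norm_of_regular (locSubring B 𝔪) V h.loc_le h.X₁ h.X₂ h.ne_zero h.mem_nonunits h.X₂_mem
    h.prin' h.gen' (exists_frac B 𝔪) n hn z hz r hr hzr

/-- Every element of `𝔪² B_𝔪` is congruent to a multiple of `x₂²` modulo `x₁`. -/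
theorem sq_congr (s : locSubring B 𝔪) (hs : s ∈ maximalIdeal (locSubring B 𝔪) ^ 2) :
    ∃ r c : locSubring B 𝔪, s = h.X₂ ^ 2 * r + h.X₁ * c := by
  have h1 : maximalIdeal (locSubring B 𝔪) ^ 2 ≤ Ideal.span {h.X₁, h.X₂} ^ 2 :=
    Ideal.pow_right_mono h.gen' 2
  have h2 := h1 hs
  rw [sq] at h2
  refine Submodule.mul_induction_on h2 ?_ ?_
  · intro a ha b hb
    rw [Ideal.mem_span_pair] at ha hb
    obtain ⟨a₁, a₂, rfl⟩ := ha
    obtain ⟨b₁, b₂, rfl⟩ := hb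
    exact ⟨a₂ * b₂, a₁ * b₁ * h.X₁ + a₁ * b₂ * h.X₂ + a₂ * b₁ * h.X₂, by ring⟩
  · rintro a b ⟨r, c, rfl⟩ ⟨r', c', rfl⟩
    exact ⟨r + r', c + c', by ring⟩

end BranchData

/-- **LPZ, one branch** (Mathlib-only form). -/
theorem lpzOneB [IsNoetherianRing B] (h : BranchData B 𝔪 V x₁ x₂) (n : ℕ) (hn : 0 < n)
    (u p : E) (hu : u - 1 ∈ V.nonunits) (hp : IsLocUnitB B 𝔪 (u * p ^ n)) :
    ∃ Hinv : E, IsLocUnitB B 𝔪 (u * Hinv ^ n) ∧ Hinv ∈ V ∧ Hinv - 1 ∈ V.nonunits := by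
  obtain ⟨Hinv, ⟨ε', hε', hH⟩, hHV, hH1⟩ :=
    lpz_core_one (locSubring B 𝔪) n hn V h.loc_le
      (fun z hz r hr hzr => h.norm n hn z hz r hr hzr) u p hu
      ((isLocUnitB_iff B 𝔪 _).mp hp)
  exact ⟨Hinv, (isLocUnitB_iff B 𝔪 _).mpr ⟨ε', hε', hH⟩, hHV, hH1⟩

/-- **LPZ, three branches** `z₁ = 0`, `z₂ = 0`, `z₁ + z₂ = 0` (Mathlib-only form). -/
theorem lpzThreeB [IsNoetherianRing B] {V₁ V₂ V₃ : ValuationSubring E} {z₁ z₂ : E}
    (h₁ : BranchData B 𝔪 V₁ z₁ z₂) (h₂ : BranchData B 𝔪 V₂ z₂ z₁)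
    (h₃ : BranchData B 𝔪 V₃ (z₁ + z₂) z₁)
    (q : ℕ) (hq : q.Prime) (hq₁ : (q : E) ∈ V₁.nonunits) (hq₂ : (q : E) ∈ V₂.nonunits)
    (hq₃ : (q : E) ∈ V₃.nonunits)
    (n : ℕ) (hn : 0 < n) (hnq : Nat.Coprime n q) (ζ : E) (hζB : ζ ∈ B)
    (hζ : IsPrimitiveRoot ζ n)
    (u p : E) (hu₁ : u - 1 ∈ V₁.nonunits) (hu₂ : u - 1 ∈ V₂.nonunits)
    (hu₃ : u - 1 ∈ V₃.nonunits) (hp : IsLocUnitB B 𝔪 (u * p ^ n)) :
    ∃ (Hinv : E) (k₁ k₂ k₃ : ℕ), IsLocUnitB B 𝔪 (u * Hinv ^ n) ∧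
      (Hinv ∈ V₁ ∧ Hinv - ζ ^ k₁ ∈ V₁.nonunits) ∧
      (Hinv ∈ V₂ ∧ Hinv - ζ ^ k₂ ∈ V₂.nonunits) ∧
      (Hinv ∈ V₃ ∧ Hinv - ζ ^ k₃ ∈ V₃.nonunits) := by
  classical
  set R := locSubring B 𝔪 with hR
  let Z₁ : R := h₁.X₁
  let Z₂ : R := h₁.X₂
  have hZ₁ : (Z₁ : E) = z₁ := rfl
  have hZ₂ : (Z₂ : E) = z₂ := rfl
  let ζR : R := toLoc B 𝔪 ⟨ζ, hζB⟩
  have hζR : IsPrimitiveRoot ζR n :=
    IsPrimitiveRoot.of_map_of_injective (f := R.subtype)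
      (show IsPrimitiveRoot (R.subtype ζR) n from hζ) Subtype.val_injective
  let V : Fin 3 → ValuationSubring E := ![V₁, V₂, V₃]
  let e : Fin 3 → R := ![Z₂ * (Z₁ + Z₂), Z₁ * (Z₁ + Z₂), Z₁ * Z₂]
  have hz₁V₁ : z₁ ∈ V₁.nonunits := h₁.mem_nonunits
  have hz₂V₂ : z₂ ∈ V₂.nonunits := h₂.mem_nonunits
  have hz₃V₃ : z₁ + z₂ ∈ V₃.nonunits := h₃.mem_nonunits
  have hRV : ∀ i, ∀ r : R, (r : E) ∈ V i := by
    intro i r
    fin_cases i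
    · exact h₁.loc_le r
    · exact h₂.loc_le r
    · exact h₃.loc_le r
  have hqV : ∀ i, (q : E) ∈ (V i).nonunits := by
    intro i
    fin_cases i
    · exact hq₁
    · exact hq₂
    · exact hq₃
  have hnorm : ∀ i, ∀ z : E, z ∈ V i → ∀ r : R, IsUnit r → z ^ n - (r : E) ∈ (V i).nonunits →
      ∃ r' : R, z - (r' : E) ∈ (V i).nonunits := by
    intro i
    fin_cases i
    · exact fun z hz r hr hzr => h₁.norm n hn z hz r hr hzr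
    · exact fun z hz r hr hzr => h₂.norm n hn z hz r hr hzr
    · exact fun z hz r hr hzr => h₃.norm n hn z hz r hr hzr
  have he0 : ∀ i j, j ≠ i → (e i : E) ∈ (V j).nonunits := by
    intro i j hji
    fin_cases i <;> fin_cases j
    · exact absurd rfl hji
    · -- e 0 = Z₂ (Z₁ + Z₂) at V₂
      show (z₂ * (z₁ + z₂) : E) ∈ V₂.nonunits
      rw [mul_comm]
      exact mul_mem_nonunits_left V₂ (h₂.loc_le (Z₁ + Z₂)) hz₂V₂
    · show (z₂ * (z₁ + z₂) : E) ∈ V₃.nonunits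
      exact mul_mem_nonunits_left V₃ (h₃.loc_le Z₂) hz₃V₃
    · show (z₁ * (z₁ + z₂) : E) ∈ V₁.nonunits
      rw [mul_comm]
      exact mul_mem_nonunits_left V₁ (h₁.loc_le (Z₁ + Z₂)) hz₁V₁
    · exact absurd rfl hji
    · show (z₁ * (z₁ + z₂) : E) ∈ V₃.nonunits
      exact mul_mem_nonunits_left V₃ (h₃.loc_le Z₁) hz₃V₃
    · show (z₁ * z₂ : E) ∈ V₁.nonunits
      rw [mul_comm]
      exact mul_mem_nonunits_left V₁ (h₁.loc_le Z₂) hz₁V₁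
    · show (z₁ * z₂ : E) ∈ V₂.nonunits
      exact mul_mem_nonunits_left V₂ (h₂.loc_le Z₁) hz₂V₂
    · exact absurd rfl hji
  have heN : ∀ i, ∀ s : R, s ∈ (maximalIdeal R) ^ 2 →
      ∃ r : R, ((s - e i * r : R) : E) ∈ (V i).nonunits := by
    intro i s hs
    fin_cases i
    · obtain ⟨r, c, hrc⟩ := h₁.sq_congr s hs
      refine ⟨r, ?_⟩
      have h' : (s : E) = z₂ ^ 2 * (r : E) + z₁ * (c : E) := by
        rw [hrc]
        rfl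
      have : ((s - Z₂ * (Z₁ + Z₂) * r : R) : E) = (((c - Z₂ * r : R) : E)) * z₁ := by
        show (s : E) - z₂ * (z₁ + z₂) * (r : E) = ((c : E) - z₂ * (r : E)) * z₁
        rw [h']
        ring
      show ((s - Z₂ * (Z₁ + Z₂) * r : R) : E) ∈ V₁.nonunits
      rw [this]
      exact mul_mem_nonunits_left V₁ (h₁.loc_le _) hz₁V₁
    · obtain ⟨r, c, hrc⟩ := h₂.sq_congr s hs
      refine ⟨r, ?_⟩
      have h' : (s : E) = z₁ ^ 2 * (r : E) + z₂ * (c : E) := by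
        rw [hrc]
        rfl
      have : ((s - Z₁ * (Z₁ + Z₂) * r : R) : E) = (((c - Z₁ * r : R) : E)) * z₂ := by
        show (s : E) - z₁ * (z₁ + z₂) * (r : E) = ((c : E) - z₁ * (r : E)) * z₂
        rw [h']
        ring
      show ((s - Z₁ * (Z₁ + Z₂) * r : R) : E) ∈ V₂.nonunits
      rw [this]
      exact mul_mem_nonunits_left V₂ (h₂.loc_le _) hz₂V₂
    · obtain ⟨r, c, hrc⟩ := h₃.sq_congr s hs
      refine ⟨-r, ?_⟩
      have h' : (s : E) = z₁ ^ 2 * (r : E) + (z₁ + z₂) * (c : E) := by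
        rw [hrc]
        rfl
      have : ((s - Z₁ * Z₂ * (-r) : R) : E) = (((c + Z₁ * r : R) : E)) * (z₁ + z₂) := by
        show (s : E) - z₁ * z₂ * (-(r : E)) = ((c : E) + z₁ * (r : E)) * (z₁ + z₂)
        rw [h']
        ring
      show ((s - Z₁ * Z₂ * (-r) : R) : E) ∈ V₃.nonunits
      rw [this]
      exact mul_mem_nonunits_left V₃ (h₃.loc_le _) hz₃V₃
  have hu : ∀ i, u - 1 ∈ (V i).nonunits := by
    intro i
    fin_cases i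
    · exact hu₁
    · exact hu₂
    · exact hu₃
  obtain ⟨Hinv, k, ⟨ε', hε', hH⟩, hHk⟩ :=
    lpz_core R q hq n hn hnq ζR hζR V hRV hqV hnorm 2 e he0 heN u p hu
      ((isLocUnitB_iff B 𝔪 _).mp hp)
  exact ⟨Hinv, k 0, k 1, k 2, (isLocUnitB_iff B 𝔪 _).mpr ⟨ε', hε', hH⟩, hHk 0, hHk 1, hHk 2⟩

end Branch

end Fermat.Agent.H47.SS2

end
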