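import Fermat.Agent.H11.SS2.Defs
import Fermat.Agent.H41.SS.TubeChart
import Fermat.Agent.H47.SS2.LpzBranch

/-!
# P-SS2 row 893 (SS2-A2 LPZ) (helper47): local principalisation with roots of unity

* `lpzOne : Fermat.Agent.H11.SS2.LPZOneStatement` (unconditional);
* `lpzThree : Fermat.Agent.H11.SS2.LPZThreeStatement` (unconditional).

The proofs are the Mathlib-only theorems `lpzOneB`, `lpzThreeB` of
`Fermat.Agent.H47.SS2.LpzBranch` (on `lpz_core`, `lpz_core_one`, `norm_of_regular`), applied to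
`B = chartClosure A E₀ y`, which is noetherian with fraction field `E₀`
(`Fermat.Agent.H41.SS.chartClosure_isNoetherianRing`, `chartClosure_isFractionRing`).  The
hypotheses "`V` is the only vertical valuation through `𝔪`" resp. "`V₁, V₂, V₃` are all of them",
the distinctness of the `Vᵢ` and `p ≠ 0` are not used.
-/

set_option autoImplicit false
set_option linter.style.haveILetI false

noncomputable section

namespace Fermat.Agent.H47.SS2

open Fermat.Agent.H22.KL Fermat.Agent.H45 Fermat.Agent.H11.SS2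

/-- A regular point in the sense of `Fermat.Agent.H11.SS2.IsRegPoint` gives the branch data. -/
theorem branchData_of_isRegPoint
    (A : Type) [CommRing A] [IsDomain A] [IsDiscreteValuationRing A]
    (E₀ : Type) [Field E₀] [Algebra A E₀]
    (hinj : Function.Injective (algebraMap A E₀))
    (ϖ : A) (hϖ : Irreducible ϖ) (y : E₀) (hy : Transcendental A y)
    (𝔪 : Ideal (chartClosure A E₀ y)) {V : ValuationSubring E₀} {x₁ x₂ : E₀}
    (h : IsRegPoint A E₀ ϖ y 𝔪 V x₁ x₂) :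
    BranchData (chartClosure A E₀ y) 𝔪 V x₁ x₂ where
  sub := fun b => h.vert.2.2.1 _
    ((Fermat.Agent.H89.gaussClosureStatement A E₀ hinj ϖ hϖ y hy).1 _ b.2)
  thru := h.thru
  mem₁ := h.mem₁
  mem₂ := h.mem₂
  mem_max₂ := h.mem_max₂
  ne_zero := h.unif.1
  mem_nonunits := h.unif.2.1
  prin := h.prin
  gen := h.gen

/-- The residue characteristic lies in the maximal ideal of every vertical valuation. -/
theorem natCast_mem_nonunits_of_isVertical
    (A : Type) [CommRing A] [IsDomain A] [IsDiscreteValuationRing A]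
    (E₀ : Type) [Field E₀] [Algebra A E₀]
    (ϖ : A) (hϖ : Irreducible ϖ) (y : E₀) (q : ℕ) (hqA : ¬ IsUnit ((q : ℕ) : A))
    {V : ValuationSubring E₀} (hV : IsVertical A E₀ ϖ y V)
    (hsub : ∀ b : chartClosure A E₀ y, (b : E₀) ∈ V) : (q : E₀) ∈ V.nonunits := by
  have h1 : ((q : ℕ) : A) ∈ IsLocalRing.maximalIdeal A := hqA
  rw [hϖ.maximalIdeal_eq, Ideal.mem_span_singleton] at h1
  obtain ⟨c, hc⟩ := h1
  have h2 : (q : E₀) = algebraMap A E₀ c * algebraMap A E₀ ϖ := by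
    rw [← map_mul, mul_comm, ← hc, map_natCast]
  rw [h2]
  exact mul_mem_nonunits_left V
    (hsub ⟨_, Subalgebra.algebraMap_mem (chartClosure A E₀ y) c⟩) hV.2.2.2

/-- **LPZ, one branch** (row 893, part (1)). -/
theorem lpzOne : LPZOneStatement := by
  intro A _ _ _ E₀ _ _ _ hinj ϖ hϖ y hy hfd 𝔪 h𝔪 _ V x₁ x₂ hreg _ n hn u p hu _ hp
  haveI := h𝔪.isPrime
  haveI : IsNoetherianRing (chartClosure A E₀ y) :=
    Fermat.Agent.H41.SS.chartClosure_isNoetherianRing A E₀ hinj ϖ hϖ y hy hfd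
  haveI : IsFractionRing (chartClosure A E₀ y) E₀ :=
    Fermat.Agent.H41.SS.chartClosure_isFractionRing A E₀ y hy hfd
  have hbd := branchData_of_isRegPoint A E₀ hinj ϖ hϖ y hy 𝔪 hreg
  obtain ⟨Hinv, h1, h2, h3⟩ := lpzOneB hbd n hn u p hu.2 hp
  exact ⟨Hinv, h1, h2, h3⟩

/-- **LPZ, three branches** (row 893, part (3)). -/
theorem lpzThree : LPZThreeStatement := by
  intro A _ _ _ E₀ _ _ _ hinj ϖ hϖ y hy hfd q hq hqA 𝔪 h𝔪 _ V₁ V₂ V₃ z₁ z₂ _ _ _ hr₁ hr₂ hr₃ _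
    n hn hnA ζ hζ u p hu₁ hu₂ hu₃ _ hp
  haveI := h𝔪.isPrime
  haveI : IsNoetherianRing (chartClosure A E₀ y) :=
    Fermat.Agent.H41.SS.chartClosure_isNoetherianRing A E₀ hinj ϖ hϖ y hy hfd
  haveI : IsFractionRing (chartClosure A E₀ y) E₀ :=
    Fermat.Agent.H41.SS.chartClosure_isFractionRing A E₀ y hy hfd
  have hbd₁ := branchData_of_isRegPoint A E₀ hinj ϖ hϖ y hy 𝔪 hr₁
  have hbd₂ := branchData_of_isRegPoint A E₀ hinj ϖ hϖ y hy 𝔪 hr₂
  have hbd₃ := branchData_of_isRegPoint A E₀ hinj ϖ hϖ y hy 𝔪 hr₃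
  have hq₁ := natCast_mem_nonunits_of_isVertical A E₀ ϖ hϖ y q hqA hr₁.vert hbd₁.sub
  have hq₂ := natCast_mem_nonunits_of_isVertical A E₀ ϖ hϖ y q hqA hr₂.vert hbd₂.sub
  have hq₃ := natCast_mem_nonunits_of_isVertical A E₀ ϖ hϖ y q hqA hr₃.vert hbd₃.sub
  have hnq : Nat.Coprime n q := by
    rw [Nat.coprime_comm, Nat.Prime.coprime_iff_not_dvd hq]
    rintro ⟨m, rfl⟩
    rw [Nat.cast_mul] at hnA
    exact hqA (isUnit_of_mul_isUnit_left hnA)
  have hζE : IsPrimitiveRoot (algebraMap A E₀ ζ) n := hζ.map_of_injective hinj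
  have hζn : ∀ k : ℕ, (ζ ^ k) ^ n = 1 := fun k => by
    rw [← pow_mul, mul_comm, pow_mul, hζ.pow_eq_one, one_pow]
  obtain ⟨Hinv, k₁, k₂, k₃, hH, hc₁, hc₂, hc₃⟩ :=
    lpzThreeB hbd₁ hbd₂ hbd₃ q hq hq₁ hq₂ hq₃ n hn hnq (algebraMap A E₀ ζ)
      (Subalgebra.algebraMap_mem (chartClosure A E₀ y) ζ) hζE u p hu₁.2 hu₂.2 hu₃.2 hp
  refine ⟨Hinv, ζ ^ k₁, ζ ^ k₂, ζ ^ k₃, hζn k₁, hζn k₂, hζn k₃, hH, ?_, ?_, ?_⟩
  · rw [map_pow]
    exact hc₁
  · rw [map_pow]
    exact hc₂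
  · rw [map_pow]
    exact hc₃

end Fermat.Agent.H47.SS2

end
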