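import Fermat.Agent.H47.SS2.Lpz

/-!
# P-SS2 row 893 (SS2-A2 LPZ), bonus: TWO branches (helper47)

The variant of `lpzThree` for a point `𝔪 = (z₁, z₂)` through which the two branches `z₁ = 0`
(`V₁`) and `z₂ = 0` (`V₂`) pass (a node of the special fibre, as needed at `q ∥ M` for S35):

* `lpzTwoB` : Mathlib-only form (on `lpz_core` with `N = 1`, `e₁ = z₂`, `e₂ = z₁`);
* `LPZTwoStatement`, `lpzTwo : LPZTwoStatement` : chart language, same shape as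
  `Fermat.Agent.H11.SS2.LPZThreeStatement`.
-/

set_option autoImplicit false
set_option linter.style.haveILetI false
set_option linter.unusedSectionVars false

noncomputable section

namespace Fermat.Agent.H47.SS2

open IsLocalRing

section Branch

variable {A : Type*} [CommRing A] {E : Type*} [Field E] [Algebra A E]
variable {B : Subalgebra A E} {𝔪 : Ideal B} [h𝔪 : 𝔪.IsPrime] [hFR : IsFractionRing B E]
variable {V : ValuationSubring E} {x₁ x₂ : E}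

/-- Every element of `𝔪 B_𝔪` is congruent to a multiple of `x₂` modulo `x₁`. -/
theorem BranchData.congr_one (h : BranchData B 𝔪 V x₁ x₂) (s : locSubring B 𝔪)
    (hs : s ∈ maximalIdeal (locSubring B 𝔪) ^ 1) :
    ∃ r c : locSubring B 𝔪, s = h.X₂ * r + h.X₁ * c := by
  rw [pow_one] at hs
  have h2 := h.gen' hs
  rw [Ideal.mem_span_pair] at h2
  obtain ⟨a, b, hab⟩ := h2
  exact ⟨b, a, by rw [← hab]; ring⟩

/-- **LPZ, two branches** `z₁ = 0`, `z₂ = 0` (Mathlib-only form). -/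
theorem lpzTwoB [IsNoetherianRing B] {V₁ V₂ : ValuationSubring E} {z₁ z₂ : E}
    (h₁ : BranchData B 𝔪 V₁ z₁ z₂) (h₂ : BranchData B 𝔪 V₂ z₂ z₁)
    (q : ℕ) (hq : q.Prime) (hq₁ : (q : E) ∈ V₁.nonunits) (hq₂ : (q : E) ∈ V₂.nonunits)
    (n : ℕ) (hn : 0 < n) (hnq : Nat.Coprime n q) (ζ : E) (hζB : ζ ∈ B)
    (hζ : IsPrimitiveRoot ζ n)
    (u p : E) (hu₁ : u - 1 ∈ V₁.nonunits) (hu₂ : u - 1 ∈ V₂.nonunits)
    (hp : IsLocUnitB B 𝔪 (u * p ^ n)) :
    ∃ (Hinv : E) (k₁ k₂ : ℕ), IsLocUnitB B 𝔪 (u * Hinv ^ n) ∧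
      (Hinv ∈ V₁ ∧ Hinv - ζ ^ k₁ ∈ V₁.nonunits) ∧
      (Hinv ∈ V₂ ∧ Hinv - ζ ^ k₂ ∈ V₂.nonunits) := by
  classical
  set R := locSubring B 𝔪 with hR
  let Z₁ : R := h₁.X₁
  let Z₂ : R := h₁.X₂
  let ζR : R := toLoc B 𝔪 ⟨ζ, hζB⟩
  have hζR : IsPrimitiveRoot ζR n :=
    IsPrimitiveRoot.of_map_of_injective (f := R.subtype)
      (show IsPrimitiveRoot (R.subtype ζR) n from hζ) Subtype.val_injective
  let V : Fin 2 → ValuationSubring E := ![V₁, V₂]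
  let e : Fin 2 → R := ![Z₂, Z₁]
  have hz₁V₁ : z₁ ∈ V₁.nonunits := h₁.mem_nonunits
  have hz₂V₂ : z₂ ∈ V₂.nonunits := h₂.mem_nonunits
  have hRV : ∀ i, ∀ r : R, (r : E) ∈ V i := by
    intro i r
    fin_cases i
    · exact h₁.loc_le r
    · exact h₂.loc_le r
  have hqV : ∀ i, (q : E) ∈ (V i).nonunits := by
    intro i
    fin_cases i
    · exact hq₁
    · exact hq₂
  have hnorm : ∀ i, ∀ z : E, z ∈ V i → ∀ r : R, IsUnit r → z ^ n - (r : E) ∈ (V i).nonunits →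
      ∃ r' : R, z - (r' : E) ∈ (V i).nonunits := by
    intro i
    fin_cases i
    · exact fun z hz r hr hzr => h₁.norm n hn z hz r hr hzr
    · exact fun z hz r hr hzr => h₂.norm n hn z hz r hr hzr
  have he0 : ∀ i j, j ≠ i → (e i : E) ∈ (V j).nonunits := by
    intro i j hji
    fin_cases i <;> fin_cases j
    · exact absurd rfl hji
    · exact hz₂V₂
    · exact hz₁V₁
    · exact absurd rfl hji
  have heN : ∀ i, ∀ s : R, s ∈ (maximalIdeal R) ^ 1 →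
      ∃ r : R, ((s - e i * r : R) : E) ∈ (V i).nonunits := by
    intro i s hs
    fin_cases i
    · obtain ⟨r, c, hrc⟩ := h₁.congr_one s hs
      refine ⟨r, ?_⟩
      have h' : (s : E) = z₂ * (r : E) + z₁ * (c : E) := by
        rw [hrc]
        rfl
      have : ((s - Z₂ * r : R) : E) = (c : E) * z₁ := by
        show (s : E) - z₂ * (r : E) = (c : E) * z₁
        rw [h']
        ring
      show ((s - Z₂ * r : R) : E) ∈ V₁.nonunits
      rw [this]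
      exact mul_mem_nonunits_left V₁ (h₁.loc_le _) hz₁V₁
    · obtain ⟨r, c, hrc⟩ := h₂.congr_one s hs
      refine ⟨r, ?_⟩
      have h' : (s : E) = z₁ * (r : E) + z₂ * (c : E) := by
        rw [hrc]
        rfl
      have : ((s - Z₁ * r : R) : E) = (c : E) * z₂ := by
        show (s : E) - z₁ * (r : E) = (c : E) * z₂
        rw [h']
        ring
      show ((s - Z₁ * r : R) : E) ∈ V₂.nonunits
      rw [this]
      exact mul_mem_nonunits_left V₂ (h₂.loc_le _) hz₂V₂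
  have hu : ∀ i, u - 1 ∈ (V i).nonunits := by
    intro i
    fin_cases i
    · exact hu₁
    · exact hu₂
  obtain ⟨Hinv, k, ⟨ε', hε', hH⟩, hHk⟩ :=
    lpz_core R q hq n hn hnq ζR hζR V hRV hqV hnorm 1 e he0 heN u p hu
      ((isLocUnitB_iff B 𝔪 _).mp hp)
  exact ⟨Hinv, k 0, k 1, (isLocUnitB_iff B 𝔪 _).mpr ⟨ε', hε', hH⟩, hHk 0, hHk 1⟩

end Branch

open Fermat.Agent.H22.KL Fermat.Agent.H45 Fermat.Agent.H11.SS2

/-- **LPZ, two branches**: at a regular point `𝔪 = (z₁, z₂)` through which the vertical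
valuations `V₁` (local equation `z₁`) and `V₂` (local equation `z₂`) pass, a function `u ≡ 1` on
both branches which is locally a unit times an `n`-th power (`n` prime to the residue
characteristic `q`, `μ_n ⊆ A`) has a local `n`-th root `Hinv⁻¹` with `Hinv ≡ cᵢ` on `Vᵢ`,
`cᵢ ∈ μ_n(A)`. -/
def LPZTwoStatement : Prop :=
  ∀ (A : Type) [CommRing A] [IsDomain A] [IsDiscreteValuationRing A]
    (E₀ : Type) [Field E₀] [Algebra A E₀] [CharZero E₀],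
    Function.Injective (algebraMap A E₀) →
    ∀ (ϖ : A), Irreducible ϖ → ∀ (y : E₀), Transcendental A y →
    (∃ n : ℕ, Nonempty (Module.Basis (Fin n) (chartField A E₀ y) E₀)) →
    ∀ (q : ℕ), q.Prime → ¬ IsUnit ((q : ℕ) : A) →
    ∀ (𝔪 : Ideal (chartClosure A E₀ y)), 𝔪.IsMaximal →
      ∀ (V₁ V₂ : ValuationSubring E₀) (z₁ z₂ : E₀),
        IsRegPoint A E₀ ϖ y 𝔪 V₁ z₁ z₂ → IsRegPoint A E₀ ϖ y 𝔪 V₂ z₂ z₁ →
        ∀ (n : ℕ), 0 < n → IsUnit ((n : ℕ) : A) → ∀ ζ : A, IsPrimitiveRoot ζ n →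
        ∀ u p : E₀, CongrAt E₀ V₁ u 1 → CongrAt E₀ V₂ u 1 →
          IsLocUnit A E₀ y 𝔪 (u * p ^ n) →
          ∃ (Hinv : E₀) (c₁ c₂ : A), c₁ ^ n = 1 ∧ c₂ ^ n = 1 ∧
            IsLocUnit A E₀ y 𝔪 (u * Hinv ^ n) ∧
            CongrAt E₀ V₁ Hinv (algebraMap A E₀ c₁) ∧
            CongrAt E₀ V₂ Hinv (algebraMap A E₀ c₂)

/-- **LPZ, two branches** (unconditional). -/
theorem lpzTwo : LPZTwoStatement := by
  intro A _ _ _ E₀ _ _ _ hinj ϖ hϖ y hy hfd q hq hqA 𝔪 h𝔪 V₁ V₂ z₁ z₂ hr₁ hr₂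
    n hn hnA ζ hζ u p hu₁ hu₂ hp
  haveI := h𝔪.isPrime
  haveI : IsNoetherianRing (chartClosure A E₀ y) :=
    Fermat.Agent.H41.SS.chartClosure_isNoetherianRing A E₀ hinj ϖ hϖ y hy hfd
  haveI : IsFractionRing (chartClosure A E₀ y) E₀ :=
    Fermat.Agent.H41.SS.chartClosure_isFractionRing A E₀ y hy hfd
  have hbd₁ := branchData_of_isRegPoint A E₀ hinj ϖ hϖ y hy 𝔪 hr₁
  have hbd₂ := branchData_of_isRegPoint A E₀ hinj ϖ hϖ y hy 𝔪 hr₂
  have hq₁ := natCast_mem_nonunits_of_isVertical A E₀ ϖ hϖ y q hqA hr₁.vert hbd₁.sub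
  have hq₂ := natCast_mem_nonunits_of_isVertical A E₀ ϖ hϖ y q hqA hr₂.vert hbd₂.sub
  have hnq : Nat.Coprime n q := by
    rw [Nat.coprime_comm, Nat.Prime.coprime_iff_not_dvd hq]
    rintro ⟨m, rfl⟩
    rw [Nat.cast_mul] at hnA
    exact hqA (isUnit_of_mul_isUnit_left hnA)
  have hζE : IsPrimitiveRoot (algebraMap A E₀ ζ) n := hζ.map_of_injective hinj
  have hζn : ∀ k : ℕ, (ζ ^ k) ^ n = 1 := fun k => by
    rw [← pow_mul, mul_comm, pow_mul, hζ.pow_eq_one, one_pow]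
  obtain ⟨Hinv, k₁, k₂, hH, hc₁, hc₂⟩ :=
    lpzTwoB hbd₁ hbd₂ q hq hq₁ hq₂ n hn hnq (algebraMap A E₀ ζ)
      (Subalgebra.algebraMap_mem (chartClosure A E₀ y) ζ) hζE u p hu₁.2 hu₂.2 hp
  refine ⟨Hinv, ζ ^ k₁, ζ ^ k₂, hζn k₁, hζn k₂, hH, ?_, ?_⟩
  · rw [map_pow]
    exact hc₁
  · rw [map_pow]
    exact hc₂

end Fermat.Agent.H47.SS2

end
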