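import Fermat.Agent.H60.SS2.RegInterfaces
import Fermat.Agent.H47.SS2.LpzTwo

/-!
# P-SS2 row 893 (SS2-A2 LPZ): the LPZ theorems for helper60's `IsRegPoint` (helper47)

`Fermat.Agent.H60.SS2.IsRegPoint` (the output of REGCRIT) also gives the branch data
`Fermat.Agent.H47.SS2.BranchData`, hence local principalisation with roots of unity:

* `branchData_of_isRegPoint60`, `isRegPoint11_of_isRegPoint60` (the adapter to
  `Fermat.Agent.H11.SS2.IsRegPoint`, given `ϖ ∈ 𝔪_V`);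
* `lpzOne60`, `lpzTwo60`, `lpzThree60` : one, two, three branches.  In the cases with roots of
  unity the hypothesis `ϖ ∈ 𝔪_{Vᵢ}` is explicit (it is not part of
  `Fermat.Agent.H60.SS2.IsVerticalThrough`).
-/

set_option autoImplicit false
set_option linter.style.haveILetI false

noncomputable section

namespace Fermat.Agent.H47.SS2

open Fermat.Agent.H22.KL Fermat.Agent.H45

section

variable (A : Type) [CommRing A] [IsDomain A] [IsDiscreteValuationRing A]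
variable (E₀ : Type) [Field E₀] [Algebra A E₀]

/-- helper60's regular points give the branch data. -/
theorem branchData_of_isRegPoint60
    (hinj : Function.Injective (algebraMap A E₀))
    (ϖ : A) (hϖ : Irreducible ϖ) (y : E₀) (hy : Transcendental A y)
    (𝔪 : Ideal (chartClosure A E₀ y)) (_h𝔪 : 𝔪.IsPrime) {V : ValuationSubring E₀} {x₁ x₂ : E₀}
    (h : Fermat.Agent.H60.SS2.IsRegPoint A E₀ ϖ y 𝔪 V x₁ x₂) :
    BranchData (chartClosure A E₀ y) 𝔪 V x₁ x₂ := by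
  obtain ⟨s₂, hs₂, hs₂x⟩ := h.x2_mem
  have hx₂B : x₂ ∈ chartClosure A E₀ y := hs₂x ▸ s₂.2
  have hx₁0 : x₁ ≠ 0 := h.unif.1
  refine
    { sub := fun b => h.vert.2.1 _
        ((Fermat.Agent.H89.gaussClosureStatement A E₀ hinj ϖ hϖ y hy).1 _ b.2)
      thru := h.vert.2.2
      mem₁ := h.x1_mem
      mem₂ := hx₂B
      mem_max₂ := ?_
      ne_zero := hx₁0
      mem_nonunits := h.unif.2.1
      prin := ?_
      gen := ?_ }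
  · intro hx
    have : (⟨x₂, hx⟩ : chartClosure A E₀ y) = s₂ := Subtype.ext hs₂x.symm
    rw [this]
    exact hs₂
  · intro s hs
    obtain ⟨b, hb, c, hbc⟩ := h.prin s hs
    refine ⟨b, hb, ?_⟩
    have : (b : E₀) * ((s : E₀) / x₁) = (c : E₀) := by
      rw [← mul_div_assoc, hbc, mul_div_cancel_left₀ _ hx₁0]
    rw [this]
    exact c.2
  · intro s hs
    obtain ⟨b, hb, c₁, c₂, hbc⟩ := h.reg s hs
    have hb0 : (b : E₀) ≠ 0 := by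
      intro h0
      have : b = 0 := Subtype.ext h0
      exact hb (this ▸ 𝔪.zero_mem)
    refine ⟨(c₁ : E₀) / (b : E₀), (c₂ : E₀) / (b : E₀), ⟨b, hb, ?_⟩, ⟨b, hb, ?_⟩, ?_⟩
    · rw [mul_div_cancel₀ _ hb0]
      exact c₁.2
    · rw [mul_div_cancel₀ _ hb0]
      exact c₂.2
    · have : (s : E₀) = ((b : E₀) * (s : E₀)) / (b : E₀) := by
        rw [mul_div_cancel_left₀ _ hb0]
      rw [this, hbc]
      field_simp

/-- helper60's regular points are regular points in the sense of `Fermat.Agent.H11.SS2`, as soon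
as `ϖ` is a non-unit of `V`. -/
theorem isRegPoint11_of_isRegPoint60
    (hinj : Function.Injective (algebraMap A E₀))
    (ϖ : A) (hϖ : Irreducible ϖ) (y : E₀) (hy : Transcendental A y)
    (𝔪 : Ideal (chartClosure A E₀ y)) (h𝔪 : 𝔪.IsPrime) {V : ValuationSubring E₀} {x₁ x₂ : E₀}
    (h : Fermat.Agent.H60.SS2.IsRegPoint A E₀ ϖ y 𝔪 V x₁ x₂)
    (hϖV : algebraMap A E₀ ϖ ∈ V.nonunits) :
    Fermat.Agent.H11.SS2.IsRegPoint A E₀ ϖ y 𝔪 V x₁ x₂ := by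
  have hbd := branchData_of_isRegPoint60 A E₀ hinj ϖ hϖ y hy 𝔪 h𝔪 h
  exact
    { vert := ⟨h.vert.1, h.pir, h.vert.2.1, hϖV⟩
      thru := h.vert.2.2
      mem₁ := hbd.mem₁
      mem₂ := hbd.mem₂
      mem_max₂ := hbd.mem_max₂
      unif := h.unif
      prin := hbd.prin
      gen := hbd.gen }

end

/-- **LPZ, one branch**, for helper60's `IsRegPoint`. -/
theorem lpzOne60
    (A : Type) [CommRing A] [IsDomain A] [IsDiscreteValuationRing A]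
    (E₀ : Type) [Field E₀] [Algebra A E₀] [CharZero E₀]
    (hinj : Function.Injective (algebraMap A E₀))
    (ϖ : A) (hϖ : Irreducible ϖ) (y : E₀) (hy : Transcendental A y)
    (hfd : ∃ n : ℕ, Nonempty (Module.Basis (Fin n) (chartField A E₀ y) E₀))
    (𝔪 : Ideal (chartClosure A E₀ y)) (h𝔪 : 𝔪.IsMaximal)
    (V : ValuationSubring E₀) (x₁ x₂ : E₀)
    (hreg : Fermat.Agent.H60.SS2.IsRegPoint A E₀ ϖ y 𝔪 V x₁ x₂)
    (n : ℕ) (hn : 0 < n) (u p : E₀) (hu : u - 1 ∈ V.nonunits)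
    (hp : Fermat.Agent.H60.SS2.IsLocUnit A E₀ y 𝔪 (u * p ^ n)) :
    ∃ Hinv : E₀, Fermat.Agent.H60.SS2.IsLocUnit A E₀ y 𝔪 (u * Hinv ^ n) ∧
      Hinv ∈ V ∧ Hinv - 1 ∈ V.nonunits := by
  haveI := h𝔪.isPrime
  haveI : IsNoetherianRing (chartClosure A E₀ y) :=
    Fermat.Agent.H41.SS.chartClosure_isNoetherianRing A E₀ hinj ϖ hϖ y hy hfd
  haveI : IsFractionRing (chartClosure A E₀ y) E₀ :=
    Fermat.Agent.H41.SS.chartClosure_isFractionRing A E₀ y hy hfd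
  have hbd := branchData_of_isRegPoint60 A E₀ hinj ϖ hϖ y hy 𝔪 h𝔪.isPrime hreg
  obtain ⟨Hinv, h1, h2, h3⟩ := lpzOneB hbd n hn u p hu hp
  exact ⟨Hinv, h1, h2, h3⟩

/-- **LPZ, two branches**, for helper60's `IsRegPoint`. -/
theorem lpzTwo60
    (A : Type) [CommRing A] [IsDomain A] [IsDiscreteValuationRing A]
    (E₀ : Type) [Field E₀] [Algebra A E₀] [CharZero E₀]
    (hinj : Function.Injective (algebraMap A E₀))
    (ϖ : A) (hϖ : Irreducible ϖ) (y : E₀) (hy : Transcendental A y)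
    (hfd : ∃ n : ℕ, Nonempty (Module.Basis (Fin n) (chartField A E₀ y) E₀))
    (q : ℕ) (hq : q.Prime) (hqA : ¬ IsUnit ((q : ℕ) : A))
    (𝔪 : Ideal (chartClosure A E₀ y)) (h𝔪 : 𝔪.IsMaximal)
    (V₁ V₂ : ValuationSubring E₀) (z₁ z₂ : E₀)
    (hr₁ : Fermat.Agent.H60.SS2.IsRegPoint A E₀ ϖ y 𝔪 V₁ z₁ z₂)
    (hr₂ : Fermat.Agent.H60.SS2.IsRegPoint A E₀ ϖ y 𝔪 V₂ z₂ z₁)
    (hϖ₁ : algebraMap A E₀ ϖ ∈ V₁.nonunits) (hϖ₂ : algebraMap A E₀ ϖ ∈ V₂.nonunits)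
    (n : ℕ) (hn : 0 < n) (hnA : IsUnit ((n : ℕ) : A)) (ζ : A) (hζ : IsPrimitiveRoot ζ n)
    (u p : E₀) (hu₁ : u - 1 ∈ V₁.nonunits) (hu₂ : u - 1 ∈ V₂.nonunits)
    (hp : Fermat.Agent.H60.SS2.IsLocUnit A E₀ y 𝔪 (u * p ^ n)) :
    ∃ (Hinv : E₀) (c₁ c₂ : A), c₁ ^ n = 1 ∧ c₂ ^ n = 1 ∧
      Fermat.Agent.H60.SS2.IsLocUnit A E₀ y 𝔪 (u * Hinv ^ n) ∧
      (Hinv ∈ V₁ ∧ Hinv - algebraMap A E₀ c₁ ∈ V₁.nonunits) ∧
      (Hinv ∈ V₂ ∧ Hinv - algebraMap A E₀ c₂ ∈ V₂.nonunits) := by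
  have h1 := isRegPoint11_of_isRegPoint60 A E₀ hinj ϖ hϖ y hy 𝔪 h𝔪.isPrime hr₁ hϖ₁
  have h2 := isRegPoint11_of_isRegPoint60 A E₀ hinj ϖ hϖ y hy 𝔪 h𝔪.isPrime hr₂ hϖ₂
  have hu₁' : Fermat.Agent.H11.SS2.CongrAt E₀ V₁ u 1 := by
    refine ⟨?_, hu₁⟩
    have := add_mem (V₁.nonunits_subset hu₁) (one_mem V₁)
    rwa [sub_add_cancel] at this
  have hu₂' : Fermat.Agent.H11.SS2.CongrAt E₀ V₂ u 1 := by
    refine ⟨?_, hu₂⟩
    have := add_mem (V₂.nonunits_subset hu₂) (one_mem V₂)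
    rwa [sub_add_cancel] at this
  exact lpzTwo A E₀ hinj ϖ hϖ y hy hfd q hq hqA 𝔪 h𝔪 V₁ V₂ z₁ z₂ h1 h2 n hn hnA ζ hζ u p
    hu₁' hu₂' hp

/-- **LPZ, three branches**, for helper60's `IsRegPoint`. -/
theorem lpzThree60
    (A : Type) [CommRing A] [IsDomain A] [IsDiscreteValuationRing A]
    (E₀ : Type) [Field E₀] [Algebra A E₀] [CharZero E₀]
    (hinj : Function.Injective (algebraMap A E₀))
    (ϖ : A) (hϖ : Irreducible ϖ) (y : E₀) (hy : Transcendental A y)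
    (hfd : ∃ n : ℕ, Nonempty (Module.Basis (Fin n) (chartField A E₀ y) E₀))
    (q : ℕ) (hq : q.Prime) (hqA : ¬ IsUnit ((q : ℕ) : A))
    (𝔪 : Ideal (chartClosure A E₀ y)) (h𝔪 : 𝔪.IsMaximal)
    (V₁ V₂ V₃ : ValuationSubring E₀) (z₁ z₂ : E₀)
    (hr₁ : Fermat.Agent.H60.SS2.IsRegPoint A E₀ ϖ y 𝔪 V₁ z₁ z₂)
    (hr₂ : Fermat.Agent.H60.SS2.IsRegPoint A E₀ ϖ y 𝔪 V₂ z₂ z₁)
    (hr₃ : Fermat.Agent.H60.SS2.IsRegPoint A E₀ ϖ y 𝔪 V₃ (z₁ + z₂) z₁)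
    (hϖ₁ : algebraMap A E₀ ϖ ∈ V₁.nonunits) (hϖ₂ : algebraMap A E₀ ϖ ∈ V₂.nonunits)
    (hϖ₃ : algebraMap A E₀ ϖ ∈ V₃.nonunits)
    (n : ℕ) (hn : 0 < n) (hnA : IsUnit ((n : ℕ) : A)) (ζ : A) (hζ : IsPrimitiveRoot ζ n)
    (u p : E₀) (hu₁ : u - 1 ∈ V₁.nonunits) (hu₂ : u - 1 ∈ V₂.nonunits)
    (hu₃ : u - 1 ∈ V₃.nonunits)
    (hp : Fermat.Agent.H60.SS2.IsLocUnit A E₀ y 𝔪 (u * p ^ n)) :
    ∃ (Hinv : E₀) (c₁ c₂ c₃ : A), c₁ ^ n = 1 ∧ c₂ ^ n = 1 ∧ c₃ ^ n = 1 ∧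
      Fermat.Agent.H60.SS2.IsLocUnit A E₀ y 𝔪 (u * Hinv ^ n) ∧
      (Hinv ∈ V₁ ∧ Hinv - algebraMap A E₀ c₁ ∈ V₁.nonunits) ∧
      (Hinv ∈ V₂ ∧ Hinv - algebraMap A E₀ c₂ ∈ V₂.nonunits) ∧
      (Hinv ∈ V₃ ∧ Hinv - algebraMap A E₀ c₃ ∈ V₃.nonunits) := by
  haveI := h𝔪.isPrime
  haveI : IsNoetherianRing (chartClosure A E₀ y) :=
    Fermat.Agent.H41.SS.chartClosure_isNoetherianRing A E₀ hinj ϖ hϖ y hy hfd
  haveI : IsFractionRing (chartClosure A E₀ y) E₀ :=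
    Fermat.Agent.H41.SS.chartClosure_isFractionRing A E₀ y hy hfd
  have h1 := isRegPoint11_of_isRegPoint60 A E₀ hinj ϖ hϖ y hy 𝔪 h𝔪.isPrime hr₁ hϖ₁
  have h2 := isRegPoint11_of_isRegPoint60 A E₀ hinj ϖ hϖ y hy 𝔪 h𝔪.isPrime hr₂ hϖ₂
  have h3 := isRegPoint11_of_isRegPoint60 A E₀ hinj ϖ hϖ y hy 𝔪 h𝔪.isPrime hr₃ hϖ₃
  have hbd₁ := branchData_of_isRegPoint A E₀ hinj ϖ hϖ y hy 𝔪 h1
  have hbd₂ := branchData_of_isRegPoint A E₀ hinj ϖ hϖ y hy 𝔪 h2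
  have hbd₃ := branchData_of_isRegPoint A E₀ hinj ϖ hϖ y hy 𝔪 h3
  have hq₁ := natCast_mem_nonunits_of_isVertical A E₀ ϖ hϖ y q hqA h1.vert hbd₁.sub
  have hq₂ := natCast_mem_nonunits_of_isVertical A E₀ ϖ hϖ y q hqA h2.vert hbd₂.sub
  have hq₃ := natCast_mem_nonunits_of_isVertical A E₀ ϖ hϖ y q hqA h3.vert hbd₃.sub
  have hnq : Nat.Coprime n q := by
    rw [Nat.coprime_comm, Nat.Prime.coprime_iff_not_dvd hq]
    rintro ⟨m, rfl⟩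
    rw [Nat.cast_mul] at hnA
    exact hqA (isUnit_of_mul_isUnit_left hnA)
  have hζE : IsPrimitiveRoot (algebraMap A E₀ ζ) n := hζ.map_of_injective hinj
  have hζn : ∀ k : ℕ, (ζ ^ k) ^ n = 1 := fun k => by
    rw [← pow_mul, mul_comm, pow_mul, hζ.pow_eq_one, one_pow]
  obtain ⟨Hinv, k₁, k₂, k₃, hH, hc₁, hc₂, hc₃⟩ :=
    lpzThreeB hbd₁ hbd₂ hbd₃ q hq hq₁ hq₂ hq₃ n hn hnq (algebraMap A E₀ ζ)
      (Subalgebra.algebraMap_mem (chartClosure A E₀ y) ζ) hζE u p hu₁ hu₂ hu₃ hp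
  refine ⟨Hinv, ζ ^ k₁, ζ ^ k₂, ζ ^ k₃, hζn k₁, hζn k₂, hζn k₃, hH, ?_, ?_, ?_⟩
  · rw [map_pow]
    exact hc₁
  · rw [map_pow]
    exact hc₂
  · rw [map_pow]
    exact hc₃

end Fermat.Agent.H47.SS2

end
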