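import Mathlib

/-!
# P-SS2 row 893 (SS2-A2 LPZ), core (helper47): Mathlib only

Local principalisation with roots of unity at a point of a model through which finitely many
branches pass.

Setting: `E` a field, `R ⊆ E` a local subring (`R = B_𝔪`), `q` a prime, `n > 0` prime to `q`,
`ζ ∈ R` a primitive `n`-th root of unity, `V i` (`i ∈ ι`, `ι` finite) valuation subrings of `E`
containing `R` with `q ∈ 𝔪_{V i}` (the vertical valuations through the point), such that

* `[NORM]` : if `z ∈ V i` and `z ^ n ≡ r mod 𝔪_{V i}` with `r ∈ Rˣ`, then `z ≡ r' mod 𝔪_{V i}` for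
  some `r' ∈ R` (the branch `R / 𝔭_i` is `n`-root closed in the residue field of `V i`);
* `[GLUE]` : there are `N` and `e i ∈ R` with `e i ∈ 𝔪_{V j}` for `j ≠ i` such that every element
  of `𝔪_R ^ N` is congruent modulo `𝔪_{V i}` to a multiple of `e i`.

If `u ≡ 1 mod 𝔪_{V i}` for all `i` and `u p ^ n ∈ Rˣ`, then there are `Hinv ∈ E` and exponents
`k i` with `u Hinv ^ n ∈ Rˣ`, `Hinv ∈ V i` and `Hinv ≡ ζ ^ (k i) mod 𝔪_{V i}`.
-/

set_option autoImplicit false
set_option linter.style.haveILetI false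

namespace Fermat.Agent.H47.SS2

open IsLocalRing

section Val

variable {E : Type*} [Field E] (V : ValuationSubring E)

/-- Membership in the maximal ideal of a valuation subring via the residue map. -/
theorem mem_nonunits_iff_residue {x : E} (hx : x ∈ V) :
    x ∈ V.nonunits ↔ residue V ⟨x, hx⟩ = 0 := by
  rw [residue_eq_zero_iff, ValuationSubring.mem_nonunits_iff_exists_mem_maximalIdeal]
  exact ⟨fun ⟨_, h⟩ => h, fun h => ⟨hx, h⟩⟩

/-- Congruence modulo the maximal ideal of a valuation subring via the residue map. -/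
theorem sub_mem_nonunits_iff_residue {x y : E} (hx : x ∈ V) (hy : y ∈ V) :
    x - y ∈ V.nonunits ↔ residue V ⟨x, hx⟩ = residue V ⟨y, hy⟩ := by
  rw [mem_nonunits_iff_residue V (sub_mem hx hy)]
  have h : (⟨x - y, sub_mem hx hy⟩ : V) = ⟨x, hx⟩ - ⟨y, hy⟩ := rfl
  rw [h, map_sub, sub_eq_zero]

/-- A valuation subring is root closed. -/
theorem mem_of_pow_mem_valuationSubring {x : E} {n : ℕ} (hn : n ≠ 0) (h : x ^ n ∈ V) :
    x ∈ V := by
  rw [← V.valuation_le_one_iff] at h ⊢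
  rw [map_pow] at h
  exact (pow_le_one_iff hn).mp h

/-- An element of `V` outside the maximal ideal has its inverse in `V`. -/
theorem inv_mem_of_notMem_nonunits {x : E} (h : x ∉ V.nonunits) : x⁻¹ ∈ V := by
  rw [ValuationSubring.mem_nonunits_iff_or] at h
  by_contra hx
  exact h (Or.inr hx)

end Val

/-- Reduction of a primitive `n`-th root of unity along a ring homomorphism of domains in
which `n` stays nonzero. -/
theorem isPrimitiveRoot_map_of_natCast_ne_zero {R k : Type*} [CommRing R] [IsDomain R]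
    [CommRing k] [IsDomain k] (φ : R →+* k) {ζ : R} {n : ℕ} (hn : 0 < n)
    (hζ : IsPrimitiveRoot ζ n) (hnk : (n : k) ≠ 0) : IsPrimitiveRoot (φ ζ) n := by
  obtain ⟨m, rfl⟩ : ∃ m, n = m + 1 := ⟨n - 1, by omega⟩
  have hprod := hζ.prod_one_sub_pow_eq_order
  have hprod' := congrArg φ hprod
  rw [map_prod] at hprod'
  simp only [map_sub, map_one, map_pow, map_add, map_natCast] at hprod'
  refine IsPrimitiveRoot.mk_of_lt _ hn (by rw [← map_pow, hζ.pow_eq_one, map_one]) ?_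
  intro l hl0 hln hl1
  have hz : ∏ j ∈ Finset.range m, (1 - φ ζ ^ (j + 1)) = 0 :=
    Finset.prod_eq_zero (i := l - 1) (Finset.mem_range.mpr (by omega))
      (by rw [Nat.sub_add_cancel hl0, hl1, sub_self])
  rw [hz] at hprod'
  apply hnk
  push_cast
  exact hprod'.symm

/-- **SS2-A2 LPZ, core** (arbitrary finite family of branches). -/
theorem lpz_core {E : Type*} [Field E] (R : Subring E) [IsLocalRing R]
    (q : ℕ) (hq : q.Prime) (n : ℕ) (hn : 0 < n) (hnq : Nat.Coprime n q)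
    (ζ : R) (hζ : IsPrimitiveRoot ζ n)
    {ι : Type*} [Finite ι] (V : ι → ValuationSubring E)
    (hRV : ∀ i, ∀ r : R, (r : E) ∈ V i)
    (hqV : ∀ i, (q : E) ∈ (V i).nonunits)
    (hnorm : ∀ i, ∀ z : E, z ∈ V i → ∀ r : R, IsUnit r → z ^ n - (r : E) ∈ (V i).nonunits →
      ∃ r' : R, z - (r' : E) ∈ (V i).nonunits)
    (N : ℕ) (e : ι → R)
    (he0 : ∀ i j, j ≠ i → (e i : E) ∈ (V j).nonunits)
    (heN : ∀ i, ∀ s : R, s ∈ (maximalIdeal R) ^ N →
      ∃ r : R, ((s - e i * r : R) : E) ∈ (V i).nonunits)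
    (u p : E) (hu : ∀ i, u - 1 ∈ (V i).nonunits)
    (hp : ∃ ε : R, IsUnit ε ∧ u * p ^ n = (ε : E)) :
    ∃ (Hinv : E) (k : ι → ℕ), (∃ ε' : R, IsUnit ε' ∧ u * Hinv ^ n = (ε' : E)) ∧
      ∀ i, Hinv ∈ V i ∧ Hinv - (ζ : E) ^ (k i) ∈ (V i).nonunits := by
  classical
  obtain ⟨ε, hε, hup⟩ := hp
  rcases isEmpty_or_nonempty ι with hι | ⟨⟨i0⟩⟩
  · exact ⟨p, fun _ => 0, ⟨ε, hε, hup⟩, fun i => isEmptyElim i⟩
  haveI : Fintype ι := Fintype.ofFinite ι
  have hn0 : n ≠ 0 := hn.ne'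
  -- the residue maps
  let ρ : ∀ i, R →+* ResidueField (V i) := fun i =>
    (residue (V i)).comp (Subring.inclusion (fun r hr => hRV i ⟨r, hr⟩ :
      R ≤ (V i).toSubring))
  have hρ : ∀ i (r : R), ρ i r = residue (V i) ⟨(r : E), hRV i r⟩ := fun i r => rfl
  have hρ0 : ∀ i (r : R), (r : E) ∈ (V i).nonunits ↔ ρ i r = 0 := fun i r =>
    mem_nonunits_iff_residue (V i) (hRV i r)
  have hcentre : ∀ i (r : R), ρ i r = 0 → r ∈ maximalIdeal R := by
    intro i r hr
    rw [mem_maximalIdeal, mem_nonunits_iff]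
    intro hunit
    have := hunit.map (ρ i)
    rw [hr] at this
    exact not_isUnit_zero this
  have hunitρ : ∀ i (r s : R), IsUnit r → ρ i s = ρ i r → IsUnit s := by
    intro i r s hr hs
    by_contra hns
    have h1 : s ∈ maximalIdeal R := hns
    have h2 : s - r ∈ maximalIdeal R := hcentre i _ (by rw [map_sub, hs, sub_self])
    have h3 : r ∈ maximalIdeal R := by
      have := (maximalIdeal R).sub_mem h1 h2
      simpa using this
    exact h3 hr
  -- `u` is a unit of every `V i` with residue `1`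
  have huV : ∀ i, u ∈ V i := fun i => by
    have := add_mem ((V i).nonunits_subset (hu i)) (one_mem (V i))
    simpa using this
  have hures : ∀ i, residue (V i) ⟨u, huV i⟩ = 1 := fun i => by
    rw [(sub_mem_nonunits_iff_residue (V i) (huV i) (one_mem (V i))).mp (hu i)]
    exact map_one _
  have hunu : ∀ i, u ∉ (V i).nonunits := fun i h => by
    have := (mem_nonunits_iff_residue (V i) (huV i)).mp h
    rw [hures i] at this
    exact one_ne_zero this
  have hu0 : u ≠ 0 := fun h => hunu i0 (by rw [h]; exact zero_mem _)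
  have huinv : ∀ i, u⁻¹ ∈ V i := fun i => inv_mem_of_notMem_nonunits (V i) (hunu i)
  -- `p ∈ V i` and `p ^ n ≡ ε`
  have hpn : p ^ n = (ε : E) * u⁻¹ := by
    rw [← hup]
    field_simp
  have hpV : ∀ i, p ∈ V i := fun i =>
    mem_of_pow_mem_valuationSubring (V i) hn0 (by
      rw [hpn]
      exact mul_mem (hRV i ε) (huinv i))
  have hpres : ∀ i, residue (V i) ⟨p, hpV i⟩ ^ n = ρ i ε := by
    intro i
    have h1 : (⟨u, huV i⟩ : V i) * ⟨p, hpV i⟩ ^ n = ⟨(ε : E), hRV i ε⟩ := Subtype.ext hup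
    have h2 := congrArg (residue (V i)) h1
    rw [map_mul, map_pow, hures i, one_mul] at h2
    rw [h2, hρ]
  -- lifts of the residues of `p`
  have hlift : ∀ i, ∃ π : R, IsUnit π ∧ ρ i π = residue (V i) ⟨p, hpV i⟩ := by
    intro i
    have h1 : p ^ n - (ε : E) ∈ (V i).nonunits := by
      rw [sub_mem_nonunits_iff_residue (V i) (pow_mem (hpV i) n) (hRV i ε)]
      have : (⟨p ^ n, pow_mem (hpV i) n⟩ : V i) = ⟨p, hpV i⟩ ^ n := rfl
      rw [this, map_pow, hpres i, hρ]
    obtain ⟨π, hπ⟩ := hnorm i p (hpV i) ε hε h1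
    have hπ' : ρ i π = residue (V i) ⟨p, hpV i⟩ :=
      ((sub_mem_nonunits_iff_residue (V i) (hpV i) (hRV i π)).mp hπ).symm
    refine ⟨π, ?_, hπ'⟩
    have h2 : IsUnit (π ^ n) := hunitρ i ε (π ^ n) hε (by rw [map_pow, hπ', hpres i])
    exact (isUnit_pow_iff hn0).mp h2
  choose π hπu hπ using hlift
  -- the residue field of `R` and the roots of unity
  have hqR : (q : R) ∈ maximalIdeal R := hcentre i0 _ (by
    rw [← hρ0]
    exact_mod_cast hqV i0)
  have hnR : IsUnit (n : R) := by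
    by_contra hns
    have h1 : (n : R) ∈ maximalIdeal R := hns
    obtain ⟨a, b, hab⟩ : ∃ a b : ℤ, a * n + b * q = 1 := by
      have := Nat.Coprime.isCoprime hnq
      obtain ⟨a, b, h⟩ := this
      exact ⟨a, b, h⟩
    have h2 : ((a : R) * (n : R) + (b : R) * (q : R)) = 1 := by
      have := congrArg (Int.cast : ℤ → R) hab
      push_cast at this
      exact this
    have h3 : (1 : R) ∈ maximalIdeal R := by
      rw [← h2]
      exact (maximalIdeal R).add_mem ((maximalIdeal R).mul_mem_left _ h1)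
        ((maximalIdeal R).mul_mem_left _ hqR)
    exact (maximalIdeal R).ne_top_iff_one.mp (maximalIdeal.isMaximal R).ne_top h3
  have hnk : ((n : ℕ) : ResidueField R) ≠ 0 := by
    intro h
    have h1 : residue R (n : R) = 0 := by rw [map_natCast]; exact h
    rw [residue_eq_zero_iff] at h1
    exact h1 hnR
  have hζk : IsPrimitiveRoot (residue R ζ) n :=
    isPrimitiveRoot_map_of_natCast_ne_zero (residue R) hn hζ hnk
  haveI : NeZero n := ⟨hn0⟩
  -- the values at the closed point differ by roots of unity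
  have hval : ∀ i, residue R (π i) ^ n = residue R ε := by
    intro i
    rw [← map_pow, ← sub_eq_zero, ← map_sub, residue_eq_zero_iff]
    exact hcentre i _ (by rw [map_sub, map_pow, hπ i, hpres i, sub_self])
  have hroot : ∀ i, ∃ k : ℕ, residue R (π i) = residue R (ζ ^ k * π i0) := by
    intro i
    have hu0' : IsUnit (residue R (π i0)) := (hπu i0).map _
    have h1 : (residue R (π i) * (hu0'.unit⁻¹ : (ResidueField R)ˣ)) ^ n = 1 := by
      rw [mul_pow, hval i, ← hval i0, ← Units.val_pow_eq_pow_val]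
      have : residue R (π i0) ^ n = ((hu0'.unit ^ n : (ResidueField R)ˣ) : ResidueField R) := by
        rw [Units.val_pow_eq_pow_val, IsUnit.unit_spec]
      rw [this, ← Units.val_mul, inv_pow, mul_inv_cancel, Units.val_one]
    obtain ⟨k, -, hk⟩ := hζk.eq_pow_of_pow_eq_one h1
    refine ⟨k, ?_⟩
    rw [map_mul, map_pow, hk, mul_assoc, Units.inv_mul_eq_one.mpr (IsUnit.unit_spec hu0').symm,
      mul_one]
  choose k hk using hroot
  -- `τ i = π i / (ζ ^ k i * π i0) ∈ 1 + 𝔪_R`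
  have hcu : ∀ i, IsUnit (ζ ^ k i * π i0) := fun i =>
    ((hζ.isUnit hn0).pow _).mul (hπu i0)
  have hτ : ∀ i, ∃ a : R, a ∈ maximalIdeal R ∧ π i = ζ ^ k i * π i0 * (1 + a) := by
    intro i
    obtain ⟨w, hw⟩ := hcu i
    refine ⟨(↑w⁻¹ : R) * π i - 1, ?_, ?_⟩
    · rw [← residue_eq_zero_iff, map_sub, map_mul, hk i, ← hw, ← map_mul,
        Units.inv_mul, sub_self]
    · rw [← hw]
      have : (w : R) * (1 + ((↑w⁻¹ : R) * π i - 1)) = (w : R) * (↑w⁻¹ : R) * π i := by ring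
      rw [this, Units.mul_inv, one_mul]
  choose a ha hπa using hτ
  -- gluing
  obtain ⟨M, hM⟩ : ∃ M : ℕ, N ≤ q ^ M := ⟨N, (Nat.lt_pow_self hq.one_lt).le⟩
  have hglue : ∀ i, ∃ r : R, ρ i (a i ^ q ^ M) = ρ i (e i * r) := by
    intro i
    have h1 : a i ^ q ^ M ∈ (maximalIdeal R) ^ N :=
      Ideal.pow_le_pow_right hM (Ideal.pow_mem_pow (ha i) _)
    obtain ⟨r, hr⟩ := heN i _ h1
    refine ⟨r, ?_⟩
    rw [hρ0, map_sub, sub_eq_zero] at hr
    exact hr
  choose r hr using hglue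
  have hfrob : ∀ i, ρ i ((1 + a i) ^ q ^ M) = 1 + ρ i (a i ^ q ^ M) := by
    intro i
    obtain ⟨c, hc⟩ := exists_add_pow_prime_pow_eq hq (1 : R) (a i) M
    have hq0 : ρ i (q : R) = 0 := by
      rw [← hρ0]
      exact_mod_cast hqV i
    rw [hc, map_add, map_add, map_mul, map_mul, map_mul, hq0]
    simp
  set g : R := 1 + ∑ j, e j * r j with hg
  have hgρ : ∀ i, ρ i g = ρ i ((1 + a i) ^ q ^ M) := by
    intro i
    rw [hfrob i, hr i, hg, map_add, map_one, map_sum]
    congr 1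
    rw [Finset.sum_eq_single i]
    · intro j _ hji
      rw [map_mul, (hρ0 i (e j)).mp (he0 j i (Ne.symm hji)), zero_mul]
    · intro hi
      exact absurd (Finset.mem_univ i) hi
  have h1a : ∀ i, IsUnit (1 + a i) := fun i => by
    by_contra hns
    have h1 : (1 + a i) ∈ maximalIdeal R := hns
    have h2 : (1 : R) ∈ maximalIdeal R := by
      have h3 := (maximalIdeal R).sub_mem h1 (ha i)
      rwa [add_sub_cancel_right] at h3
    exact (maximalIdeal R).ne_top_iff_one.mp (maximalIdeal.isMaximal R).ne_top h2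
  have hgu : IsUnit g := hunitρ i0 _ g ((h1a i0).pow _) (hgρ i0)
  -- `δ = ε / π i0 ^ n`
  obtain ⟨εu, hεu⟩ := hε
  obtain ⟨π0u, hπ0u⟩ := hπu i0
  obtain ⟨gu, hgu'⟩ := hgu
  set δ : Rˣ := εu * (π0u ^ n)⁻¹ with hδ
  have hζn : ∀ i, (ζ ^ k i) ^ n = 1 := fun i => by
    rw [← pow_mul, mul_comm, pow_mul, hζ.pow_eq_one, one_pow]
  have hδρ : ∀ i, ρ i (δ : R) * ρ i (π i0) ^ n = ρ i (π i0) ^ n * ρ i (1 + a i) ^ n := by
    intro i
    have h1 : (δ : R) * π i0 ^ n = ε := by
      rw [hδ, ← hπ0u, ← hεu, ← Units.val_pow_eq_pow_val, ← Units.val_mul, mul_assoc,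
        inv_mul_cancel, mul_one]
    have h2 : ρ i (π i) ^ n = ρ i ε := by rw [hπ i, hpres i]
    rw [← map_pow, ← map_mul, h1, ← h2, hπa i, map_mul, map_mul, mul_pow, mul_pow, ← map_pow,
      ← map_pow, ← map_pow, hζn i, map_one, one_mul, map_pow, map_pow]
  have hπ0ρ : ∀ i, ρ i (π i0) ≠ 0 := fun i => by
    have := (hπu i0).map (ρ i)
    exact this.ne_zero
  have hδρ' : ∀ i, ρ i (δ : R) = ρ i (1 + a i) ^ n := by
    intro i
    have h := hδρ i
    rw [mul_comm] at h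
    exact mul_left_cancel₀ (pow_ne_zero n (hπ0ρ i)) h
  -- Bezout
  obtain ⟨x, y, hxy⟩ : ∃ x y : ℤ, x * n + y * (q ^ M : ℕ) = 1 := by
    have h1 : Nat.Coprime n (q ^ M) := Nat.Coprime.pow_right M hnq
    obtain ⟨x, y, h⟩ := Nat.Coprime.isCoprime h1
    exact ⟨x, y, h⟩
  set θ : Rˣ := δ ^ x * gu ^ y with hθ
  have hθρ : ∀ i, ρ i (θ : R) = ρ i (1 + a i) := by
    intro i
    obtain ⟨t, ht⟩ := h1a i
    have h1 : Units.map (ρ i).toMonoidHom δ = (Units.map (ρ i).toMonoidHom t) ^ n := by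
      apply Units.ext
      simp only [Units.coe_map, RingHom.toMonoidHom_eq_coe, MonoidHom.coe_coe,
        Units.val_pow_eq_pow_val]
      rw [hδρ' i, ht]
    have h2 : Units.map (ρ i).toMonoidHom gu = (Units.map (ρ i).toMonoidHom t) ^ (q ^ M) := by
      apply Units.ext
      simp only [Units.coe_map, RingHom.toMonoidHom_eq_coe, MonoidHom.coe_coe,
        Units.val_pow_eq_pow_val]
      rw [hgu', hgρ i, map_pow, ht]
    have h3 : Units.map (ρ i).toMonoidHom θ = Units.map (ρ i).toMonoidHom t := by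
      rw [hθ, map_mul, map_zpow, map_zpow, h1, h2, ← zpow_natCast, ← zpow_natCast, ← zpow_mul,
        ← zpow_mul, ← zpow_add]
      have : (n : ℤ) * x + ((q ^ M : ℕ) : ℤ) * y = 1 := by rw [← hxy]; ring
      rw [this, zpow_one]
    have h4 := congrArg (fun w : (ResidueField (V i))ˣ => (w : ResidueField (V i))) h3
    simp only [Units.coe_map, RingHom.toMonoidHom_eq_coe, MonoidHom.coe_coe] at h4
    rw [h4, ht]
  -- the result
  set η : Rˣ := π0u * θ with hη
  have hηV : ∀ i, ((η : R) : E) ∈ V i := fun i => hRV i _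
  have hηinvV : ∀ i, (((η⁻¹ : Rˣ) : R) : E) ∈ V i := fun i => hRV i _
  have hηE : (((η⁻¹ : Rˣ) : R) : E) = (((η : R) : E))⁻¹ := by
    have h : (((η⁻¹ : Rˣ) : R) : E) * ((η : R) : E) = 1 := by
      rw [← Subring.coe_mul, Units.inv_mul, Subring.coe_one]
    exact eq_inv_of_mul_eq_one_left h
  have hη0 : ((η : R) : E) ≠ 0 := by
    intro h
    have h' : (((η⁻¹ : Rˣ) : R) : E) * ((η : R) : E) = 1 := by
      rw [← Subring.coe_mul, Units.inv_mul, Subring.coe_one]
    rw [h, mul_zero] at h'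
    exact zero_ne_one h'
  refine ⟨p * (((η⁻¹ : Rˣ) : R) : E), k, ⟨((εu * (η ^ n)⁻¹ : Rˣ) : R), Units.isUnit _, ?_⟩,
    fun i => ⟨mul_mem (hpV i) (hηinvV i), ?_⟩⟩
  · rw [mul_pow, ← mul_assoc, hup, Units.val_mul, Subring.coe_mul, hεu, hηE, inv_pow]
    congr 1
    have h : (((((η ^ n)⁻¹ : Rˣ) : R) : E)) * (((η : R) : E)) ^ n = 1 := by
      rw [← Subring.coe_pow, ← Units.val_pow_eq_pow_val, ← Subring.coe_mul, Units.inv_mul,
        Subring.coe_one]
    exact (eq_inv_of_mul_eq_one_left h).symm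
  · have hmem : p * (((η⁻¹ : Rˣ) : R) : E) ∈ V i := mul_mem (hpV i) (hηinvV i)
    have hζV : (ζ : E) ^ k i ∈ V i := pow_mem (hRV i ζ) _
    rw [sub_mem_nonunits_iff_residue (V i) hmem hζV]
    have e1 : (⟨p * (((η⁻¹ : Rˣ) : R) : E), hmem⟩ : V i)
        = ⟨p, hpV i⟩ * ⟨(((η⁻¹ : Rˣ) : R) : E), hηinvV i⟩ := rfl
    have e2 : (⟨(ζ : E) ^ k i, hζV⟩ : V i) = ⟨((ζ ^ k i : R) : E), hRV i _⟩ :=
      Subtype.ext (by rw [Subring.coe_pow])
    rw [e1, e2, map_mul, ← hρ i ((η⁻¹ : Rˣ) : R), ← hρ i (ζ ^ k i), ← hπ i, hπa i]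
    have h5 : ρ i (η : R) = ρ i (π i0) * ρ i (1 + a i) := by
      rw [hη, Units.val_mul, map_mul, hθρ i, hπ0u]
    have h6 : ρ i (η : R) * ρ i ((η⁻¹ : Rˣ) : R) = 1 := by
      rw [← map_mul, Units.mul_inv, map_one]
    rw [map_mul, map_mul, mul_assoc (ρ i (ζ ^ k i)), ← h5, mul_assoc, h6, mul_one]

end Fermat.Agent.H47.SS2
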