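import Fermat.Agent.H47.SS2.LpzCore

/-!
# P-SS2 row 893 (SS2-A2 LPZ), the branch of a regular point is root closed (helper47)

Mathlib only.  `R ⊆ E` a noetherian local subring with `𝔪_R = (x₁, x₂)`, `V ⊇ R` a valuation
subring of `E = Frac R` whose centre on `R` is `x₁ R`.  Then `R / x₁ R` is a discrete valuation
ring (or a field) with fraction field the residue field of `V`; in elementary terms
(`norm_of_regular`): if `z ∈ V` and `z ^ n ≡ r mod 𝔪_V` for a unit `r` of `R`, then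
`z ≡ r' mod 𝔪_V` for some `r' ∈ R`.

* `exists_pow_mul_notMem_span` : in a noetherian local domain every `b ≠ 0` is `x ^ k * b'` with
  `b' ∉ x R` (for `x ∈ 𝔪`);
* `exists_unit_mul_pow_sub_mem_span` : if `𝔪 = (x₁, x₂)` then every `b ∉ x₁ R` is congruent
  modulo `x₁ R` to `w x₂ ^ k` with `w` a unit;
* `lpz_core_one` : the one-branch case of `lpz_core` (no roots of unity, no gluing).
-/

set_option autoImplicit false
set_option linter.style.haveILetI false

namespace Fermat.Agent.H47.SS2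

open IsLocalRing

/-- In a noetherian local domain, every nonzero `b` is `x ^ k * b'` with `b' ∉ x R`, for `x` in
the maximal ideal (Krull's intersection theorem). -/
theorem exists_pow_mul_notMem_span {L : Type*} [CommRing L] [IsNoetherianRing L]
    [IsLocalRing L] (x : L) (hx : x ∈ maximalIdeal L) (b : L) (hb : b ≠ 0) :
    ∃ (k : ℕ) (b' : L), b = x ^ k * b' ∧ b' ∉ Ideal.span {x} := by
  classical
  have hI : Ideal.span {x} ≠ (⊤ : Ideal L) := by
    intro h
    have h1 : Ideal.span {x} ≤ maximalIdeal L := (Ideal.span_singleton_le_iff_mem _).mpr hx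
    rw [h] at h1
    exact (maximalIdeal.isMaximal L).ne_top (top_le_iff.mp h1)
  have hK := Ideal.iInf_pow_eq_bot_of_isLocalRing (Ideal.span {x}) hI
  have hex : ∃ k : ℕ, b ∉ Ideal.span {x} ^ k := by
    by_contra hcon
    have hall : ∀ k : ℕ, b ∈ Ideal.span {x} ^ k := fun k => by
      by_contra hk
      exact hcon ⟨k, hk⟩
    have : b ∈ (⨅ i : ℕ, Ideal.span {x} ^ i : Ideal L) := (Ideal.mem_iInf).mpr hall
    rw [hK] at this
    exact hb ((Ideal.mem_bot).mp this)
  have hk := Nat.find_spec hex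
  have hk0 : Nat.find hex ≠ 0 := by
    intro h0
    rw [h0, pow_zero, Ideal.one_eq_top] at hk
    exact hk trivial
  obtain ⟨k, hk1⟩ : ∃ k, Nat.find hex = k + 1 := ⟨Nat.find hex - 1, by omega⟩
  have hmem : b ∈ Ideal.span {x} ^ k := by
    by_contra h
    have := Nat.find_min' hex h
    omega
  rw [Ideal.span_singleton_pow, Ideal.mem_span_singleton'] at hmem
  obtain ⟨b', hb'⟩ := hmem
  refine ⟨k, b', by rw [← hb', mul_comm], fun hmem' => ?_⟩
  rw [Ideal.mem_span_singleton'] at hmem'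
  obtain ⟨c, hc⟩ := hmem'
  apply hk
  rw [hk1, Ideal.span_singleton_pow, Ideal.mem_span_singleton']
  exact ⟨c, by rw [← hb', ← hc]; ring⟩

/-- In a noetherian local ring with `𝔪 = (x₁, x₂)`, every `b ∉ x₁ R` is congruent modulo `x₁ R`
to a unit times a power of `x₂`. -/
theorem exists_unit_mul_pow_sub_mem_span {L : Type*} [CommRing L] [IsNoetherianRing L]
    [IsLocalRing L] (x₁ x₂ : L) (hm : maximalIdeal L ≤ Ideal.span {x₁, x₂})
    (hx₁ : x₁ ∈ maximalIdeal L) (hx₂ : x₂ ∈ maximalIdeal L) (b : L)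
    (hb : b ∉ Ideal.span {x₁}) :
    ∃ (k : ℕ) (w : L), IsUnit w ∧ b - w * x₂ ^ k ∈ Ideal.span {x₁} := by
  classical
  set I : Ideal L := Ideal.span {x₁} with hIdef
  have hIm : I ≤ maximalIdeal L := (Ideal.span_singleton_le_iff_mem _).mpr hx₁
  have hI : I ≠ ⊤ := by
    intro h
    rw [h] at hIm
    exact (maximalIdeal.isMaximal L).ne_top (top_le_iff.mp hIm)
  haveI : Nontrivial (L ⧸ I) := Ideal.Quotient.nontrivial_iff.mpr hI
  haveI : IsLocalRing (L ⧸ I) :=
    IsLocalRing.of_surjective' (Ideal.Quotient.mk I) Ideal.Quotient.mk_surjective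
  set t : L ⧸ I := Ideal.Quotient.mk I x₂ with ht
  -- elements of the maximal ideal of `L` map into `(t)`
  have hmt : ∀ l : L, l ∈ maximalIdeal L → Ideal.Quotient.mk I l ∈ Ideal.span {t} := by
    intro l hl
    have := hm hl
    rw [Ideal.mem_span_pair] at this
    obtain ⟨a, c, hac⟩ := this
    rw [Ideal.mem_span_singleton']
    refine ⟨Ideal.Quotient.mk I c, ?_⟩
    rw [← hac, map_add, map_mul, map_mul]
    have : Ideal.Quotient.mk I x₁ = 0 :=
      Ideal.Quotient.eq_zero_iff_mem.mpr (Ideal.subset_span rfl)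
    rw [this, mul_zero, zero_add]
  -- `t` is not a unit
  have htu : ¬ IsUnit t := by
    intro hu
    obtain ⟨d, hd⟩ := hu.exists_right_inv
    obtain ⟨c, rfl⟩ := Ideal.Quotient.mk_surjective d
    rw [ht, ← map_mul, ← map_one (Ideal.Quotient.mk I), Ideal.Quotient.eq] at hd
    have h1 : x₂ * c - 1 ∈ maximalIdeal L := hIm hd
    have h2 : x₂ * c ∈ maximalIdeal L := (maximalIdeal L).mul_mem_right c hx₂
    have h3 : (1 : L) ∈ maximalIdeal L := by
      have := (maximalIdeal L).sub_mem h2 h1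
      rwa [sub_sub_cancel] at this
    exact (maximalIdeal L).ne_top_iff_one.mp (maximalIdeal.isMaximal L).ne_top h3
  have hJ : Ideal.span {t} ≠ (⊤ : Ideal (L ⧸ I)) := by
    intro h
    exact htu (Ideal.span_singleton_eq_top.mp h)
  have hK := Ideal.iInf_pow_eq_bot_of_isLocalRing (Ideal.span {t}) hJ
  have hb0 : Ideal.Quotient.mk I b ≠ 0 := fun h => hb (Ideal.Quotient.eq_zero_iff_mem.mp h)
  have hex : ∃ k : ℕ, Ideal.Quotient.mk I b ∉ Ideal.span {t} ^ k := by
    by_contra hcon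
    have hall : ∀ k : ℕ, Ideal.Quotient.mk I b ∈ Ideal.span {t} ^ k := fun k => by
      by_contra hk
      exact hcon ⟨k, hk⟩
    have : Ideal.Quotient.mk I b ∈ (⨅ i : ℕ, Ideal.span {t} ^ i : Ideal (L ⧸ I)) :=
      (Ideal.mem_iInf).mpr hall
    rw [hK] at this
    exact hb0 ((Ideal.mem_bot).mp this)
  have hk := Nat.find_spec hex
  have hk0 : Nat.find hex ≠ 0 := by
    intro h0
    rw [h0, pow_zero, Ideal.one_eq_top] at hk
    exact hk trivial
  obtain ⟨k, hk1⟩ : ∃ k, Nat.find hex = k + 1 := ⟨Nat.find hex - 1, by omega⟩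
  have hmem : Ideal.Quotient.mk I b ∈ Ideal.span {t} ^ k := by
    by_contra h
    have := Nat.find_min' hex h
    omega
  rw [Ideal.span_singleton_pow, Ideal.mem_span_singleton'] at hmem
  obtain ⟨d, hd⟩ := hmem
  obtain ⟨w, rfl⟩ := Ideal.Quotient.mk_surjective d
  refine ⟨k, w, ?_, ?_⟩
  · by_contra hw
    have h1 : w ∈ maximalIdeal L := hw
    have h2 := hmt w h1
    rw [Ideal.mem_span_singleton'] at h2
    obtain ⟨c, hc⟩ := h2
    apply hk
    rw [hk1, Ideal.span_singleton_pow, Ideal.mem_span_singleton']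
    exact ⟨c, by rw [← hd, ← hc]; ring⟩
  · rw [← Ideal.Quotient.eq, ← hd, map_mul, map_pow]

/-- **NORM**: the branch `R / x₁ R` of a regular point is `n`-root closed in the residue field of
the valuation `V`. -/
theorem norm_of_regular {E : Type*} [Field E] (R : Subring E) [IsNoetherianRing R]
    [IsLocalRing R] (V : ValuationSubring E) (hRV : ∀ r : R, (r : E) ∈ V)
    (x₁ x₂ : R) (hx₁0 : (x₁ : E) ≠ 0) (hx₁V : (x₁ : E) ∈ V.nonunits)
    (hx₂ : x₂ ∈ maximalIdeal R)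
    (hprin : ∀ l : R, (l : E) ∈ V.nonunits → ∃ c : R, l = x₁ * c)
    (hgen : maximalIdeal R ≤ Ideal.span {x₁, x₂})
    (hfrac : ∀ z : E, ∃ a b : R, b ≠ 0 ∧ z * (b : E) = (a : E))
    (n : ℕ) (hn : 0 < n) (z : E) (hz : z ∈ V) (r : R) (hr : IsUnit r)
    (hzr : z ^ n - (r : E) ∈ V.nonunits) :
    ∃ r' : R, z - (r' : E) ∈ V.nonunits := by
  classical
  have hn0 : n ≠ 0 := hn.ne'
  -- the residue map
  let ρ : R →+* ResidueField V :=
    (residue V).comp (Subring.inclusion (fun r hr => hRV ⟨r, hr⟩ : R ≤ V.toSubring))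
  have hρ : ∀ r : R, ρ r = residue V ⟨(r : E), hRV r⟩ := fun r => rfl
  have hρ0 : ∀ r : R, (r : E) ∈ V.nonunits ↔ ρ r = 0 := fun r =>
    mem_nonunits_iff_residue V (hRV r)
  have hcentre : ∀ r : R, ρ r = 0 → r ∈ maximalIdeal R := by
    intro r hr
    rw [mem_maximalIdeal, mem_nonunits_iff]
    intro hunit
    have := hunit.map ρ
    rw [hr] at this
    exact not_isUnit_zero this
  have hx₁R : x₁ ∈ maximalIdeal R := hcentre x₁ ((hρ0 x₁).mp hx₁V)
  have hspan : ∀ l : R, l ∈ Ideal.span {x₁} → ρ l = 0 := by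
    intro l hl
    rw [Ideal.mem_span_singleton'] at hl
    obtain ⟨c, rfl⟩ := hl
    rw [map_mul, (hρ0 x₁).mp hx₁V, mul_zero]
  have hspan' : ∀ l : R, ρ l ≠ 0 → l ∉ Ideal.span {x₁} := fun l hl h => hl (hspan l h)
  -- the residue of `z`
  set zb : ResidueField V := residue V ⟨z, hz⟩ with hzb
  have hzbn : zb ^ n = ρ r := by
    have := (sub_mem_nonunits_iff_residue V (pow_mem hz n) (hRV r)).mp hzr
    have e : (⟨z ^ n, pow_mem hz n⟩ : V) = ⟨z, hz⟩ ^ n := rfl
    rw [e, map_pow] at this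
    rw [hzb, this, hρ]
  have hρr : ρ r ≠ 0 := (hr.map ρ).ne_zero
  have hzb0 : zb ≠ 0 := by
    intro h
    rw [h, zero_pow hn0] at hzbn
    exact hρr hzbn.symm
  have hz0 : z ≠ 0 := by
    intro h
    apply hzb0
    rw [hzb]
    have : (⟨z, hz⟩ : V) = 0 := Subtype.ext h
    rw [this, map_zero]
  -- write `z = a / b` and remove the powers of `x₁`
  obtain ⟨a, b, hb0, hzab⟩ := hfrac z
  have ha0 : a ≠ 0 := by
    intro h
    rw [h, Subring.coe_zero] at hzab
    rcases mul_eq_zero.mp hzab with h1 | h1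
    · exact hz0 h1
    · exact hb0 (Subtype.ext h1)
  obtain ⟨ka, a', haa', ha'⟩ := exists_pow_mul_notMem_span x₁ hx₁R a ha0
  obtain ⟨kb, b', hbb', hb'⟩ := exists_pow_mul_notMem_span x₁ hx₁R b hb0
  have hρa' : ρ a' ≠ 0 := by
    intro h
    obtain ⟨c, hc⟩ := hprin a' ((hρ0 a').mpr h)
    exact ha' (Ideal.mem_span_singleton'.mpr ⟨c, by rw [hc, mul_comm]⟩)
  have hρb' : ρ b' ≠ 0 := by
    intro h
    obtain ⟨c, hc⟩ := hprin b' ((hρ0 b').mpr h)
    exact hb' (Ideal.mem_span_singleton'.mpr ⟨c, by rw [hc, mul_comm]⟩)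
  have hρx₁ : ρ x₁ = 0 := (hρ0 x₁).mp hx₁V
  -- the exponents of `x₁` agree
  have hE : z * ((x₁ : E) ^ kb * (b' : E)) = (x₁ : E) ^ ka * (a' : E) := by
    have h1 : (b : E) = (x₁ : E) ^ kb * (b' : E) := by
      rw [hbb', Subring.coe_mul, Subring.coe_pow]
    have h2 : (a : E) = (x₁ : E) ^ ka * (a' : E) := by
      rw [haa', Subring.coe_mul, Subring.coe_pow]
    rw [← h1, ← h2, hzab]
  have hzres : ∀ (c : R), residue V ⟨z * (c : E), mul_mem hz (hRV c)⟩ = zb * ρ c := by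
    intro c
    have e : (⟨z * (c : E), mul_mem hz (hRV c)⟩ : V) = ⟨z, hz⟩ * ⟨(c : E), hRV c⟩ := rfl
    rw [e, map_mul, hρ]
  have hkk : ka = kb := by
    rcases lt_trichotomy ka kb with h | h | h
    · exfalso
      obtain ⟨d, rfl⟩ : ∃ d, kb = ka + (d + 1) := ⟨kb - ka - 1, by omega⟩
      have h1 : z * ((x₁ ^ (d + 1) * b' : R) : E) = ((a' : R) : E) := by
        have h2 : (x₁ : E) ^ ka * (z * ((x₁ : E) ^ (d + 1) * (b' : E)))
            = (x₁ : E) ^ ka * (a' : E) := by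
          rw [← hE]
          ring
        have h3 := mul_left_cancel₀ (pow_ne_zero ka hx₁0) h2
        rw [Subring.coe_mul, Subring.coe_pow]
        exact h3
      have h4 : zb * ρ (x₁ ^ (d + 1) * b') = ρ a' := by
        rw [← hzres, hρ]
        congr 1
        exact Subtype.ext h1
      rw [map_mul, map_pow, hρx₁, zero_pow (Nat.succ_ne_zero d), zero_mul, mul_zero] at h4
      exact hρa' h4.symm
    · exact h
    · exfalso
      obtain ⟨d, rfl⟩ : ∃ d, ka = kb + (d + 1) := ⟨ka - kb - 1, by omega⟩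
      have h1 : z * ((b' : R) : E) = ((x₁ ^ (d + 1) * a' : R) : E) := by
        have h2 : (x₁ : E) ^ kb * (z * (b' : E))
            = (x₁ : E) ^ kb * ((x₁ : E) ^ (d + 1) * (a' : E)) := by
          have h2' : (x₁ : E) ^ kb * ((x₁ : E) ^ (d + 1) * (a' : E))
              = (x₁ : E) ^ (kb + (d + 1)) * (a' : E) := by
            rw [pow_add]
            ring
          rw [h2', ← hE]
          ring
        have h3 := mul_left_cancel₀ (pow_ne_zero kb hx₁0) h2
        rw [Subring.coe_mul, Subring.coe_pow]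
        exact h3
      have h4 : zb * ρ b' = ρ (x₁ ^ (d + 1) * a') := by
        rw [← hzres, hρ]
        congr 1
        exact Subtype.ext h1
      rw [map_mul, map_pow, hρx₁, zero_pow (Nat.succ_ne_zero d), zero_mul] at h4
      rcases mul_eq_zero.mp h4 with h5 | h5
      · exact hzb0 h5
      · exact hρb' h5
  have hstar : zb * ρ b' = ρ a' := by
    have h1 : z * ((b' : R) : E) = ((a' : R) : E) := by
      rw [hkk] at hE
      have h2 : (x₁ : E) ^ kb * (z * (b' : E)) = (x₁ : E) ^ kb * (a' : E) := by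
        rw [← hE]
        ring
      exact mul_left_cancel₀ (pow_ne_zero kb hx₁0) h2
    rw [← hzres, hρ]
    congr 1
    exact Subtype.ext h1
  -- normal forms of `a'` and `b'` modulo `x₁`
  obtain ⟨la, wa, hwa, hwa'⟩ :=
    exists_unit_mul_pow_sub_mem_span x₁ x₂ hgen hx₁R hx₂ a' ha'
  obtain ⟨lb, wb, hwb, hwb'⟩ :=
    exists_unit_mul_pow_sub_mem_span x₁ x₂ hgen hx₁R hx₂ b' hb'
  have hρa : ρ a' = ρ wa * ρ x₂ ^ la := by
    have := hspan _ hwa'
    rw [map_sub, sub_eq_zero, map_mul, map_pow] at this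
    exact this
  have hρb : ρ b' = ρ wb * ρ x₂ ^ lb := by
    have := hspan _ hwb'
    rw [map_sub, sub_eq_zero, map_mul, map_pow] at this
    exact this
  have hτa : ρ x₂ ^ la ≠ 0 := fun h => hρa' (by rw [hρa, h, mul_zero])
  have hτb : ρ x₂ ^ lb ≠ 0 := fun h => hρb' (by rw [hρb, h, mul_zero])
  have hunit_notMem : ∀ c : R, IsUnit c → c ∉ maximalIdeal R := fun c hc h => h hc
  have hkey : zb * ρ wb * ρ x₂ ^ lb = ρ wa * ρ x₂ ^ la := by
    rw [mul_assoc, ← hρb, hstar, hρa]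
  have hkeyn : ρ r * ρ wb ^ n * (ρ x₂ ^ lb) ^ n = ρ wa ^ n * (ρ x₂ ^ la) ^ n := by
    rw [← hzbn, ← mul_pow, ← mul_pow, hkey, mul_pow]
  rcases lt_trichotomy la lb with h | h | h
  · exfalso
    obtain ⟨d, rfl⟩ : ∃ d, lb = la + (d + 1) := ⟨lb - la - 1, by omega⟩
    have h1 : (ρ x₂ ^ la) ^ n * (ρ r * ρ wb ^ n * (ρ x₂ ^ (d + 1)) ^ n)
        = (ρ x₂ ^ la) ^ n * ρ wa ^ n := by
      rw [mul_comm ((ρ x₂ ^ la) ^ n) (ρ wa ^ n), ← hkeyn, pow_add, mul_pow]
      ring
    have h2 := mul_left_cancel₀ (pow_ne_zero n hτa) h1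
    have h3 : ρ (r * wb ^ n * (x₂ ^ (d + 1)) ^ n - wa ^ n) = 0 := by
      rw [map_sub, map_mul, map_mul, map_pow, map_pow, map_pow, map_pow, h2, sub_self]
    have h4 := hcentre _ h3
    have h5 : r * wb ^ n * (x₂ ^ (d + 1)) ^ n ∈ maximalIdeal R := by
      apply Ideal.mul_mem_left
      apply Ideal.pow_mem_of_mem _ _ _ hn
      exact Ideal.pow_mem_of_mem _ hx₂ _ (Nat.succ_pos d)
    have h6 : wa ^ n ∈ maximalIdeal R := by
      have := (maximalIdeal R).sub_mem h5 h4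
      rwa [sub_sub_cancel] at this
    exact hunit_notMem _ (hwa.pow n) h6
  · subst h
    have h1 : ρ x₂ ^ la * (zb * ρ wb) = ρ x₂ ^ la * ρ wa := by
      rw [mul_comm (ρ x₂ ^ la) (ρ wa), ← hkey]
      ring
    have h2 := mul_left_cancel₀ hτa h1
    obtain ⟨wbu, hwbu⟩ := hwb
    refine ⟨wa * ((wbu⁻¹ : Rˣ) : R), ?_⟩
    rw [sub_mem_nonunits_iff_residue V hz (hRV _), ← hρ, map_mul, ← h2, ← hwbu, mul_assoc,
      ← map_mul, Units.mul_inv, map_one, mul_one]
  · exfalso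
    obtain ⟨d, rfl⟩ : ∃ d, la = lb + (d + 1) := ⟨la - lb - 1, by omega⟩
    have h1 : (ρ x₂ ^ lb) ^ n * (ρ r * ρ wb ^ n)
        = (ρ x₂ ^ lb) ^ n * (ρ wa ^ n * (ρ x₂ ^ (d + 1)) ^ n) := by
      have := hkeyn
      rw [pow_add, mul_pow] at this
      rw [mul_comm ((ρ x₂ ^ lb) ^ n) (ρ r * ρ wb ^ n), this]
      ring
    have h2 := mul_left_cancel₀ (pow_ne_zero n hτb) h1
    have h3 : ρ (r * wb ^ n - wa ^ n * (x₂ ^ (d + 1)) ^ n) = 0 := by
      rw [map_sub, map_mul, map_mul, map_pow, map_pow, map_pow, map_pow, h2, sub_self]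
    have h4 := hcentre _ h3
    have h5 : wa ^ n * (x₂ ^ (d + 1)) ^ n ∈ maximalIdeal R := by
      apply Ideal.mul_mem_left
      apply Ideal.pow_mem_of_mem _ _ _ hn
      exact Ideal.pow_mem_of_mem _ hx₂ _ (Nat.succ_pos d)
    have h6 : r * wb ^ n ∈ maximalIdeal R := by
      have := (maximalIdeal R).add_mem h4 h5
      rwa [sub_add_cancel] at this
    exact hunit_notMem _ (hr.mul (hwb.pow n)) h6

/-- **SS2-A2 LPZ, core, one branch**: no roots of unity and no gluing are needed. -/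
theorem lpz_core_one {E : Type*} [Field E] (R : Subring E) [IsLocalRing R]
    (n : ℕ) (hn : 0 < n) (V : ValuationSubring E) (hRV : ∀ r : R, (r : E) ∈ V)
    (hnorm : ∀ z : E, z ∈ V → ∀ r : R, IsUnit r → z ^ n - (r : E) ∈ V.nonunits →
      ∃ r' : R, z - (r' : E) ∈ V.nonunits)
    (u p : E) (hu : u - 1 ∈ V.nonunits)
    (hp : ∃ ε : R, IsUnit ε ∧ u * p ^ n = (ε : E)) :
    ∃ Hinv : E, (∃ ε' : R, IsUnit ε' ∧ u * Hinv ^ n = (ε' : E)) ∧
      Hinv ∈ V ∧ Hinv - 1 ∈ V.nonunits := by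
  classical
  obtain ⟨ε, hε, hup⟩ := hp
  have hn0 : n ≠ 0 := hn.ne'
  let ρ : R →+* ResidueField V :=
    (residue V).comp (Subring.inclusion (fun r hr => hRV ⟨r, hr⟩ : R ≤ V.toSubring))
  have hρ : ∀ r : R, ρ r = residue V ⟨(r : E), hRV r⟩ := fun r => rfl
  have hcentre : ∀ r : R, ρ r = 0 → r ∈ maximalIdeal R := by
    intro r hr
    rw [mem_maximalIdeal, mem_nonunits_iff]
    intro hunit
    have := hunit.map ρ
    rw [hr] at this
    exact not_isUnit_zero this
  have hunitρ : ∀ r s : R, IsUnit r → ρ s = ρ r → IsUnit s := by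
    intro r s hr hs
    by_contra hns
    have h1 : s ∈ maximalIdeal R := hns
    have h2 : s - r ∈ maximalIdeal R := hcentre _ (by rw [map_sub, hs, sub_self])
    have h3 : r ∈ maximalIdeal R := by
      have := (maximalIdeal R).sub_mem h1 h2
      rwa [sub_sub_cancel] at this
    exact h3 hr
  have huV : u ∈ V := by
    have := add_mem (V.nonunits_subset hu) (one_mem V)
    rwa [sub_add_cancel] at this
  have hures : residue V ⟨u, huV⟩ = 1 := by
    rw [(sub_mem_nonunits_iff_residue V huV (one_mem V)).mp hu]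
    exact map_one _
  have hunu : u ∉ V.nonunits := fun h => by
    have := (mem_nonunits_iff_residue V huV).mp h
    rw [hures] at this
    exact one_ne_zero this
  have hu0 : u ≠ 0 := fun h => hunu (by rw [h]; exact zero_mem _)
  have huinv : u⁻¹ ∈ V := inv_mem_of_notMem_nonunits V hunu
  have hpn : p ^ n = (ε : E) * u⁻¹ := by
    rw [← hup]
    field_simp
  have hpV : p ∈ V :=
    mem_of_pow_mem_valuationSubring V hn0 (by
      rw [hpn]
      exact mul_mem (hRV ε) huinv)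
  have hpres : residue V ⟨p, hpV⟩ ^ n = ρ ε := by
    have h1 : (⟨u, huV⟩ : V) * ⟨p, hpV⟩ ^ n = ⟨(ε : E), hRV ε⟩ := Subtype.ext hup
    have h2 := congrArg (residue V) h1
    rw [map_mul, map_pow, hures, one_mul] at h2
    rw [h2, hρ]
  have h1 : p ^ n - (ε : E) ∈ V.nonunits := by
    rw [sub_mem_nonunits_iff_residue V (pow_mem hpV n) (hRV ε)]
    have : (⟨p ^ n, pow_mem hpV n⟩ : V) = ⟨p, hpV⟩ ^ n := rfl
    rw [this, map_pow, hpres, hρ]
  obtain ⟨π, hπ⟩ := hnorm p hpV ε hε h1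
  have hπ' : ρ π = residue V ⟨p, hpV⟩ :=
    ((sub_mem_nonunits_iff_residue V hpV (hRV π)).mp hπ).symm
  have hπu : IsUnit π := by
    have h2 : IsUnit (π ^ n) := hunitρ ε (π ^ n) hε (by rw [map_pow, hπ', hpres])
    exact (isUnit_pow_iff hn0).mp h2
  obtain ⟨εu, hεu⟩ := hε
  obtain ⟨η, hη⟩ := hπu
  have hηinvV : (((η⁻¹ : Rˣ) : R) : E) ∈ V := hRV _
  have hηE : (((η⁻¹ : Rˣ) : R) : E) = (((η : R) : E))⁻¹ := by
    have h : (((η⁻¹ : Rˣ) : R) : E) * ((η : R) : E) = 1 := by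
      rw [← Subring.coe_mul, Units.inv_mul, Subring.coe_one]
    exact eq_inv_of_mul_eq_one_left h
  have hmem : p * (((η⁻¹ : Rˣ) : R) : E) ∈ V := mul_mem hpV hηinvV
  refine ⟨p * (((η⁻¹ : Rˣ) : R) : E), ⟨((εu * (η ^ n)⁻¹ : Rˣ) : R), Units.isUnit _, ?_⟩,
    hmem, ?_⟩
  · rw [mul_pow, ← mul_assoc, hup, Units.val_mul, Subring.coe_mul, hεu, hηE, inv_pow]
    congr 1
    have h : (((((η ^ n)⁻¹ : Rˣ) : R) : E)) * (((η : R) : E)) ^ n = 1 := by
      rw [← Subring.coe_pow, ← Units.val_pow_eq_pow_val, ← Subring.coe_mul, Units.inv_mul,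
        Subring.coe_one]
    exact (eq_inv_of_mul_eq_one_left h).symm
  · rw [sub_mem_nonunits_iff_residue V hmem (one_mem V)]
    have e1 : (⟨p * (((η⁻¹ : Rˣ) : R) : E), hmem⟩ : V)
        = ⟨p, hpV⟩ * ⟨(((η⁻¹ : Rˣ) : R) : E), hηinvV⟩ := rfl
    have e2 : residue V ⟨1, one_mem V⟩ = 1 := map_one _
    rw [e1, e2, map_mul, ← hρ ((η⁻¹ : Rˣ) : R), ← hπ', ← hη, ← map_mul, Units.mul_inv, map_one]

end Fermat.Agent.H47.SS2
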